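import Fermat.Agent.Carayol.CoreTarget

/-!
# Agreement where the modular equation has a root

Where the one-root algebra has a rational root the three branches separate, so a local root can
be adjusted to any root at the Gauss point.
-/

set_option autoImplicit false

noncomputable section

open Polynomial

namespace FLTA.Carayol

variable {C L K M : Type} [Field C] [Field L] [Field K] [Field M]

/-- A local root restricting to `Y`. -/
theorem exists_agree_of_root {q n : ℕ} (hq : q.Prime) (hn : 0 < n) {ζ : C}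
    (hζ : IsPrimitiveRoot ζ n) {Ψ : C[X]} (hΨ : Ψ.Monic) (hd : Ψ.natDegree = q + 1)
    (g : C →+* L) (s : RootSplit (Ψ.map g)) (h0 : s.quo.eval s.x₀ ≠ 0) (y : Pairs Ψ)
    (Y : Pairs (Ψ.map g)) (hY : Y ^ n = Pairs.map g rfl y) (τ : C →+* K) (j : K →+* M)
    (jg : L →+* M) (hcomm : j.comp τ = jg.comp g) (hquo : Irreducible (s.map jg).quo)
    (hG : ∀ _ : Fact (Irreducible (s.map jg).quo), Irreducible (s.map jg).G)
    {x : K} (hx : (Ψ.map τ).eval x = 0) (G : Pairs (Ψ.map τ)) (hGn : G ^ n = Pairs.map τ rfl y) :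
    ∃ G' : Pairs (Ψ.map τ), G' ^ n = Pairs.map τ rfl y ∧
      Pairs.map j (Ψ := (Ψ.map g).map jg)
          (by rw [Polynomial.map_map, Polynomial.map_map, hcomm]) G' = Pairs.map jg rfl Y := by
  have : NeZero n := ⟨hn.ne'⟩
  have e : (Ψ.map τ).map j = (Ψ.map g).map jg := by
    rw [Polynomial.map_map, Polynomial.map_map, hcomm]
  have := Fact.mk hquo
  have hG := hG ⟨hquo⟩
  have hdj : 1 < (s.map jg).quo.natDegree := by
    rw [(s.map jg).natDegree_quo ((hΨ.map g).map jg) (by
      rw [(hΨ.map g).natDegree_map, hΨ.natDegree_map, hd]; omega), (hΨ.map g).natDegree_map,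
      hΨ.natDegree_map, hd, Nat.add_sub_cancel]
    exact hq.one_lt
  let t : RootSplit (Ψ.map τ) := ⟨x, hx⟩
  have hx' : j x = jg s.x₀ := by
    refine (s.map jg).root_unique hquo hdj ?_
    rw [← e, eval_map, eval₂_at_apply, hx, map_zero]
  have hquo' : Irreducible (t.map j).quo :=
    RootSplit.irreducible_quo_congr e (t.map j) (s.map jg) hx' hquo
  have hG' : Irreducible (t.map j).G :=
    RootSplit.irreducible_G_congr e (t.map j) (s.map jg) hx' hG
  have hd1 : 1 < (Ψ.map τ).natDegree := by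
    rw [hΨ.natDegree_map, hd]
    have := hq.two_le
    omega
  have hqm : (t.quo).Monic := t.monic_quo (hΨ.map τ) (by omega)
  have htq : t.quo.map j = (s.map jg).quo := by
    rw [RootSplit.quo, map_divDiff, RootSplit.quo, RootSplit.map_x₀, ← hx', e]
  have : Fact (Irreducible t.quo) :=
    ⟨Polynomial.Monic.irreducible_of_irreducible_map j _ hqm (htq ▸ hquo)⟩
  have : Fact (Irreducible (t.map j).quo) := ⟨hquo'⟩
  have h0' : t.quo.eval t.x₀ ≠ 0 := by
    intro h
    have h1 : (t.quo.map j).eval (j x) = 0 := by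
      rw [eval_map, eval₂_at_apply, h, map_zero]
    rw [htq, hx', RootSplit.quo_map, eval_map, eval₂_at_apply, map_eq_zero] at h1
    exact h0 h1
  have hYe : Pairs.map (RingHom.id M) (Φ := (Ψ.map g).map jg) (Ψ := (Ψ.map τ).map j)
      (by rw [Polynomial.map_id, e]) (Pairs.map jg rfl Y) ^ n =
        Pairs.map j rfl (Pairs.map τ rfl y) := by
    rw [← map_pow, ← map_pow, hY, Pairs.map_map_apply, Pairs.map_map_apply, Pairs.map_map_apply]
    exact Pairs.map_congr (by rw [RingHom.id_comp, hcomm]) _ _ _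
  obtain ⟨G', hG'n, hG'm⟩ := t.exists_root_of_branches (hΨ.map τ) hd1 h0' j hG'
    (hζ.map_of_injective τ.injective) (Pairs.map τ rfl y)
    ⟨t.br₀ G, by rw [← map_pow, hGn]⟩ ⟨t.br₁ G, by rw [← map_pow, hGn]⟩
    ⟨t.brₘ G, by rw [← map_pow, hGn]⟩ _ hYe
  refine ⟨G', hG'n, ?_⟩
  have hback := congrArg (Pairs.map (RingHom.id M) (Φ := (Ψ.map τ).map j)
    (Ψ := (Ψ.map g).map jg) (by rw [Polynomial.map_id, e])) hG'm
  rw [Pairs.map_map_apply, Pairs.map_map_apply] at hback
  rw [Pairs.map_congr (RingHom.id_comp j).symm _ (by rw [RingHom.id_comp, e]) G', hback]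
  rw [Pairs.map_congr (RingHom.id_comp (RingHom.id M)) _ (Polynomial.map_id ..), Pairs.map_id]

end FLTA.Carayol
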