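import Fermat.Agent.Carayol.Haupt.VPoly

/-!
# Orders of polynomials in series

And the identity `R₀(u) θu = D(u)² (θu)^q` in characteristic `q` for every series `u` on the
modular equation.
-/

set_option autoImplicit false

noncomputable section

open Polynomial ModularCurve

namespace FLTA.Carayol.Haupt

open FLTA.Igusa (theta)

/-- The value of the second factor of Kronecker's congruence, as a polynomial. -/
def hPoly (q : ℕ) (H : ℤ[X][X]) : ℤ[X] :=
  H.eval₂ (aeval (R := ℤ) (X ^ q : ℤ[X])).toRingHom X

/-- The numerator attached to `v` mod `q`. -/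
def rPoly (q : ℕ) (H : ℤ[X][X]) : ℤ[X] :=
  -(dPoly q * derivative (hPoly q H)) + X ^ (q - 1) * dPoly q ^ 2 - hPoly q H

variable {q : ℕ} [hq : Fact q.Prime]

/-- The identity along a series on the modular equation. -/
theorem rPoly_identity {Φ H : ℤ[X][X]}
    (hH : Φ = (X ^ q - C X) * (X - C (X ^ q)) + (q : ℤ[X][X]) * H) (t : LaurentSeries ℤ)
    (hroot : Φ.eval₂ (aeval (qExpand ℤ q t)).toRingHom t = 0) (k : Type) [Field k] [CharP k q] :
    aeval (coeffMap (Int.castRingHom k) t) (rPoly q H) *
        theta (coeffMap (Int.castRingHom k) t) =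
      aeval (coeffMap (Int.castRingHom k) t) (dPoly q) ^ 2 *
        theta (coeffMap (Int.castRingHom k) t) ^ q := by
  have : ExpChar k q := ExpChar.prime hq.out
  set T' := qExpand ℤ q t
  obtain ⟨δ, hδ⟩ : ∃ δ, T' - t ^ q = (q : LaurentSeries ℤ) * δ := by
    refine exists_eq_natCast_mul q _ fun n => ?_
    have : ExpChar (ZMod q) q := ExpChar.prime hq.out
    have hz : coeffMap (Int.castRingHom (ZMod q)) (T' - t ^ q) = 0 := by
      rw [map_sub, map_pow, coeffMap_frobenius_intCast q (ZMod q), coeffMap_qExpand, sub_self]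
    have := congrArg (fun x : LaurentSeries (ZMod q) => x.coeff n) hz
    simp only [coeffMap_coeff, HahnSeries.coeff_zero, eq_intCast] at this
    exact (ZMod.intCast_zmod_eq_zero_iff_dvd _ q).mp this
  have hq0 : (q : LaurentSeries ℤ) ≠ 0 := by
    rw [← map_natCast HahnSeries.C]
    exact (map_ne_zero_iff _ HahnSeries.C_injective).mpr (by exact_mod_cast hq.out.ne_zero)
  have hHval : H.eval₂ (aeval T').toRingHom t = δ * (t - T' ^ q) := by
    have h1 := hroot
    rw [hH] at h1
    simp only [eval₂_add, eval₂_mul, eval₂_sub, eval₂_pow, map_pow C, eval₂_C, eval₂_X,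
      eval₂_natCast, AlgHom.toRingHom_eq_coe, RingHom.coe_coe, aeval_X] at h1
    refine mul_left_cancel₀ hq0 ?_
    simp only [T', AlgHom.toRingHom_eq_coe] at hδ ⊢
    linear_combination h1 + (t - T' ^ q) * hδ
  have hθ : theta δ = qExpand ℤ q (theta t) - t ^ (q - 1) * theta t := by
    refine mul_left_cancel₀ hq0 ?_
    have e := congrArg theta hδ
    rw [map_sub, FLTA.Igusa.theta_qExpand, theta_pow, FLTA.Igusa.theta_mul,
      ← map_natCast HahnSeries.C, FLTA.Igusa.theta_C, zero_mul, zero_add, map_natCast] at e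
    linear_combination -e
  set u := coeffMap (Int.castRingHom k) t with hu
  set δ₀ := coeffMap (Int.castRingHom k) δ
  have hF : u ^ q = qExpand k q u := coeffMap_frobenius_intCast q k t
  have h0 : (q : LaurentSeries k) = 0 := laurent_natCast_q q k
  have hh₀ : aeval u (hPoly q H) = δ₀ * (u - u ^ (q * q)) := by
    have e := congrArg (coeffMap (Int.castRingHom k)) hHval
    rw [Polynomial.hom_eval₂, map_mul, map_sub, map_pow, coeffMap_qExpand] at e
    rw [hPoly, show aeval u (H.eval₂ (aeval (R := ℤ) (X ^ q : ℤ[X])).toRingHom X) =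
      (aeval (R := ℤ) u).toRingHom (H.eval₂ (aeval (R := ℤ) (X ^ q : ℤ[X])).toRingHom X) from rfl,
      Polynomial.hom_eval₂, pow_mul, hF]
    simp only [AlgHom.toRingHom_eq_coe, RingHom.coe_coe, aeval_X]
    refine (congrArg (fun g => H.eval₂ g _) ?_).trans e
    refine Polynomial.ringHom_ext' (RingHom.ext_int _ _) ?_
    simp only [RingHom.comp_apply, AlgHom.toRingHom_eq_coe, RingHom.coe_coe, aeval_X, map_pow, T',
      coeffMap_qExpand]
    exact hF
  have hδ₀ : theta δ₀ = theta u ^ q - u ^ (q - 1) * theta u := by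
    rw [show theta u = coeffMap (Int.castRingHom k) (theta t) from
      (FLTA.Igusa.coeffMap_theta _ _).symm, coeffMap_frobenius_intCast q k, ←
      FLTA.Igusa.coeffMap_theta, hθ, map_sub, map_mul, map_pow, coeffMap_qExpand]
  have hDv : aeval u (dPoly q) = u ^ (q * q) - u := by simp [dPoly]
  have hder : aeval u (derivative (hPoly q H)) * theta u =
      theta δ₀ * (u - u ^ (q * q)) + δ₀ * theta u := by
    have e := theta_aevalInt u (hPoly q H)
    rw [hh₀, FLTA.Igusa.theta_mul, map_sub, theta_pow, Nat.cast_mul, h0] at e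
    rw [← e]
    ring
  rw [rPoly, map_sub, map_add, map_neg, map_mul, map_mul, map_pow, map_pow, aeval_X, hDv, hh₀]
  linear_combination (u - u ^ (q * q)) * hder + (u - u ^ (q * q)) ^ 2 * hδ₀

variable {k : Type} [Field k]

omit hq in
theorem order_eq_of_coeff {x : LaurentSeries k} {n : ℤ} (h : x.coeff n ≠ 0)
    (h' : ∀ m < n, x.coeff m = 0) : x.order = n := by
  refine le_antisymm (HahnSeries.order_le_of_coeff_ne_zero h) ?_
  by_contra hlt
  have hx : x ≠ 0 := fun hx => h (by simp [hx])
  exact hx (HahnSeries.coeff_order_eq_zero.1 (h' _ (not_le.1 hlt)))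

omit hq in
/-- At a value: the order is the multiplicity of the root. -/
theorem order_aeval_ofPowerSeries (v : PowerSeries k) {c : k}
    (hv0 : PowerSeries.constantCoeff v = c) (hv1 : PowerSeries.coeff 1 v ≠ 0) {P : k[X]}
    (hP : P ≠ 0) :
    aeval (HahnSeries.ofPowerSeries ℤ k v) P ≠ 0 ∧
      (aeval (HahnSeries.ofPowerSeries ℤ k v) P).order = P.rootMultiplicity c := by
  obtain ⟨S, hS, hSc⟩ := exists_eq_pow_rootMultiplicity_mul_and_not_dvd P hP c
  rw [dvd_iff_isRoot, IsRoot] at hSc
  set u := HahnSeries.ofPowerSeries ℤ k v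
  have hlin : (aeval u (X - C c)).order = 1 := by
    refine order_eq_of_coeff ?_ fun m hm => ?_
    · rw [map_sub, aeval_X, aeval_C]
      rw [HahnSeries.coeff_sub', Pi.sub_apply, ← Int.natCast_one, LaurentSeries.coeff_coe_powerSeries,
        ModularCurve.algebraMap_laurentSeries_eq_single, HahnSeries.coeff_single_of_ne (by simp)]
      simpa using hv1
    · rw [map_sub, aeval_X, aeval_C, HahnSeries.coeff_sub', Pi.sub_apply,
        ModularCurve.algebraMap_laurentSeries_eq_single]
      rcases lt_or_eq_of_le (show m ≤ 0 by omega) with h | rfl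
      · rw [HahnSeries.coeff_single_of_ne h.ne, sub_zero]
        simp only [u, PowerSeries.coeff_coe, h, if_true]
      · rw [HahnSeries.coeff_single_same, ← Nat.cast_zero, LaurentSeries.coeff_coe_powerSeries,
          PowerSeries.coeff_zero_eq_constantCoeff_apply, hv0, sub_self]
  have hlin0 : aeval u (X - C c) ≠ 0 := fun h => by
    rw [h, HahnSeries.order_zero] at hlin
    exact zero_ne_one hlin
  have hS' : (aeval u S).order = 0 ∧ aeval u S ≠ 0 := by
    have e : aeval u S = HahnSeries.ofPowerSeries ℤ k (S.eval₂ PowerSeries.C v) := by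
      rw [hom_eval₂, aeval_def]
      refine congrArg (fun f => S.eval₂ f u) (RingHom.ext fun a => ?_)
      simp [ModularCurve.algebraMap_laurentSeries_eq_single, HahnSeries.C_apply]
    have hc : (S.eval₂ PowerSeries.C v).constantCoeff = S.eval c := by
      rw [hom_eval₂, hv0, show (PowerSeries.constantCoeff (R := k)).comp PowerSeries.C =
        RingHom.id k from RingHom.ext fun a => by simp, eval₂_id]
    have h0 : (aeval u S).coeff 0 ≠ 0 := by
      rw [e, ← Nat.cast_zero, LaurentSeries.coeff_coe_powerSeries,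
        PowerSeries.coeff_zero_eq_constantCoeff_apply, hc]
      exact hSc
    refine ⟨order_eq_of_coeff h0 fun m hm => ?_, fun h => h0 (by simp [h])⟩
    rw [e, PowerSeries.coeff_coe, if_pos hm]
  have hne : aeval u P ≠ 0 := by
    rw [hS, map_mul, map_pow]
    exact mul_ne_zero (pow_ne_zero _ hlin0) hS'.2
  refine ⟨hne, ?_⟩
  conv_lhs => rw [hS]
  rw [map_mul, map_pow, HahnSeries.order_mul (pow_ne_zero _ hlin0) hS'.2, HahnSeries.order_pow,
    hlin, hS'.1, nsmul_one, add_zero]

omit hq in
/-- At a simple pole: minus the degree. -/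
theorem order_aeval_of_pole {x : LaurentSeries k} (hx : x.order = -1) :
    ∀ {P : k[X]}, P ≠ 0 → aeval x P ≠ 0 ∧ (aeval x P).order = -(P.natDegree : ℤ) := by
  have hx0 : x ≠ 0 := fun h => by rw [h, HahnSeries.order_zero] at hx; omega
  intro P
  induction P using Polynomial.recOnHorner with
  | M0 => exact fun h => absurd rfl h
  | MC p a hpa ha ih =>
    intro _
    rcases eq_or_ne p 0 with rfl | hp
    · rw [zero_add, aeval_C, natDegree_C, Nat.cast_zero, neg_zero,
        ModularCurve.algebraMap_laurentSeries_eq_single]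
      exact ⟨HahnSeries.single_ne_zero ha, HahnSeries.order_single ha⟩
    obtain ⟨h0, hord⟩ := ih hp
    have hpos : 0 < p.natDegree := by
      by_contra h
      exact hp (by
        rw [eq_C_of_natDegree_eq_zero (by omega : p.natDegree = 0), hpa, map_zero])
    rw [natDegree_add_C, map_add, aeval_C, ModularCurve.algebraMap_laurentSeries_eq_single]
    have hc : ∀ m : ℤ, m < 0 → (HahnSeries.single (0 : ℤ) a).coeff m = 0 := fun m hm =>
      HahnSeries.coeff_single_of_ne hm.ne
    have hlow : (aeval x p + HahnSeries.single 0 a).coeff (-(p.natDegree : ℤ)) ≠ 0 := by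
      rw [HahnSeries.coeff_add', Pi.add_apply, hc _ (by omega), add_zero, ← hord]
      exact fun h => h0 (HahnSeries.coeff_order_eq_zero.1 h)
    refine ⟨fun h => hlow (by simp [h]), order_eq_of_coeff hlow fun m hm => ?_⟩
    rw [HahnSeries.coeff_add', Pi.add_apply, hc _ (by omega), add_zero]
    exact HahnSeries.coeff_eq_zero_of_lt_order (hord ▸ hm)
  | MX p hp ih =>
    intro _
    obtain ⟨h0, hord⟩ := ih hp
    rw [map_mul, aeval_X, natDegree_mul_X hp]
    refine ⟨mul_ne_zero h0 hx0, ?_⟩
    rw [HahnSeries.order_mul h0 hx0, hord, hx]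
    push_cast
    ring

end FLTA.Carayol.Haupt
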