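import Fermat.Agent.Carayol.Node.Main
import Fermat.Agent.Carayol.Node.Series
import Fermat.Agent.Carayol.OrdinaryPoint

/-!
# The number of residue classes carrying nodes, for `L = 4`

A node value is a root of `T^(q²) - T` away from the cusps where the second factor of Kronecker's
congruence does not vanish. Counting the roots of `R₀` leaves at most `(q - 1) / 2` of them.
-/

set_option autoImplicit false
set_option maxHeartbeats 800000

noncomputable section

open Polynomial IsLocalRing ModularCurve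

namespace FLTA.Carayol

open Haupt (rPoly hPoly dPoly)
open FLTA.Igusa (theta)

variable {q : ℕ} [hq : Fact q.Prime]

omit hq in
theorem coeff_tOf_neg_one {L : ℕ} [NeZero L] (k : Type) [Field k] :
    (Haupt.tOf L k).coeff (-1) = 1 := by
  simpa using Haupt.coeff_tOf_pow_self L (R := k) 1

omit hq in
theorem coeff_tOf_of_lt (L : ℕ) [NeZero L] (k : Type) [Field k] {m : ℤ} (hm : m < -1) :
    (Haupt.tOf L k).coeff m = 0 := by
  simpa using Haupt.coeff_tOf_pow_of_lt L (R := k) (m := 1) (n := m) (by simpa using hm)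

omit hq in
theorem rootMultiplicity_pow_aux {k : Type} [Field k] (f : k[X]) (n : ℕ) (x : k) :
    (f ^ n).rootMultiplicity x = n * f.rootMultiplicity x := by
  classical
  rw [← count_roots, roots_pow, Multiset.count_nsmul, count_roots]

theorem intCast_pow_q (k : Type) [Field k] [CharP k q] (a : ℤ) : (a : k) ^ q = a := by
  have : ExpChar k q := ExpChar.prime hq.out
  exact map_intCast (frobenius k q) a

theorem rootMultiplicity_rPoly {Φ H : ℤ[X][X]} {k : Type} [Field k] [CharP k q]
    (hH : Φ = (X ^ q - C X) * (X - C (X ^ q)) + (q : ℤ[X][X]) * H) {η : ℤ}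
    (hrel : Haupt.cuspRel 4 q Φ η = 0) (hη : η ^ q = η) (h256 : ((η * 256 : ℤ) : k) ≠ 0)
    (hR : (rPoly q H).map (Int.castRingHom k) ≠ 0) :
    ((rPoly q H).map (Int.castRingHom k)).rootMultiplicity ((8 * (η - 1) : ℤ) : k) = q + 1 := by
  have : ExpChar k q := ExpChar.prime hq.out
  set c : k := ((8 * (η - 1) : ℤ) : k) with hc
  let cs : PowerSeries ℤ := Haupt.cuspSer 4 η
  set t : LaurentSeries ℤ := HahnSeries.ofPowerSeries ℤ ℤ cs with ht
  have hroot : Φ.eval₂ (aeval (qExpand ℤ q t)).toRingHom t = 0 := by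
    have h := congrArg (HahnSeries.ofPowerSeries ℤ ℤ) hrel
    rw [map_zero, Haupt.cuspRel, hom_eval₂, hη] at h
    convert h using 2
    refine Polynomial.ringHom_ext' (RingHom.ext_int _ _) ?_
    simp [t, cs, FLTA.Congruence.qExpand_ofPowerSeries]
  have hid := Haupt.rPoly_identity hH t hroot k
  set v : PowerSeries k := PowerSeries.map (Int.castRingHom k) cs with hv
  have htv : coeffMap (Int.castRingHom k) t = HahnSeries.ofPowerSeries ℤ k v := by
    ext n
    simp only [t, v, coeffMap_coeff, PowerSeries.coeff_coe, PowerSeries.coeff_map]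
    split_ifs <;> simp
  rw [htv] at hid
  have hv0 : PowerSeries.constantCoeff v = c := by
    rw [hv, ← PowerSeries.coeff_zero_eq_constantCoeff_apply, PowerSeries.coeff_map,
      PowerSeries.coeff_zero_eq_constantCoeff_apply, Haupt.constantCoeff_cuspSer, hc]
    simp [Haupt.etaExp]
  have hv1 : PowerSeries.coeff 1 v ≠ 0 := by
    rw [hv, PowerSeries.coeff_map, Haupt.coeff_one_cuspSer]
    simpa [Haupt.frickeNat] using h256
  set u := HahnSeries.ofPowerSeries ℤ k v with hu
  have hθ : (theta u).order = 1 := by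
    refine Haupt.order_eq_of_coeff ?_ fun m hm => ?_
    · rw [FLTA.Igusa.theta_coeff, Int.cast_one, one_mul, hu, ← Int.natCast_one,
        LaurentSeries.coeff_coe_powerSeries]
      exact hv1
    · rw [FLTA.Igusa.theta_coeff]
      rcases lt_or_eq_of_le (show m ≤ 0 by omega) with h | rfl
      · rw [hu, PowerSeries.coeff_coe, if_pos h, mul_zero]
      · rw [Int.cast_zero, zero_mul]
  have hθ0 : theta u ≠ 0 := fun h => by
    rw [h, HahnSeries.order_zero] at hθ
    exact zero_ne_one hθ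
  have hcq : c ^ (q * q) = c := by
    have h1 : c ^ q = c := by
      rw [hc]
      exact intCast_pow_q k _
    rw [pow_mul, h1, h1]
  have hD0 : (dPoly q).map (Int.castRingHom k) ≠ 0 := by
    rw [dPoly, Polynomial.map_sub, Polynomial.map_pow, map_X]
    exact FiniteField.X_pow_card_sub_X_ne_zero k (by nlinarith [hq.out.two_le])
  have hDroot : ((dPoly q).map (Int.castRingHom k)).rootMultiplicity c = 1 := by
    refine le_antisymm ?_ ?_
    · by_contra hlt
      have h2 := (one_lt_rootMultiplicity_iff_isRoot hD0).1 (not_le.1 hlt)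
      simp [dPoly, derivative_X_pow] at h2
    · exact (rootMultiplicity_pos hD0).2 (by simp [dPoly, hcq])
  have hA : ∀ P : ℤ[X], aeval u P = aeval u (P.map (Int.castRingHom k)) := fun P => by
    rw [aeval_def, aeval_def, eval₂_map]
    exact congrArg (fun f => P.eval₂ f u) (RingHom.ext_int _ _)
  rw [hA, hA] at hid
  obtain ⟨hR0, hRo⟩ := Haupt.order_aeval_ofPowerSeries v hv0 hv1 hR
  obtain ⟨hd0, hdo⟩ := Haupt.order_aeval_ofPowerSeries v hv0 hv1 hD0
  have h := congrArg HahnSeries.order hid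
  rw [HahnSeries.order_mul hR0 hθ0, HahnSeries.order_mul (pow_ne_zero _ hd0) (pow_ne_zero _ hθ0),
    HahnSeries.order_pow, HahnSeries.order_pow, hθ, hRo, hdo, hDroot] at h
  simp only [Nat.cast_one, nsmul_eq_mul, mul_one] at h
  push_cast at h
  omega

theorem natDegree_rPoly {Φ H : ℤ[X][X]} {k : Type} [Field k] [CharP k q] {L : ℕ} [NeZero L]
    (hΦ : Haupt.IsModEq q L Φ)
    (hH : Φ = (X ^ q - C X) * (X - C (X ^ q)) + (q : ℤ[X][X]) * H) :
    (rPoly q H).map (Int.castRingHom k) ≠ 0 ∧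
      ((rPoly q H).map (Int.castRingHom k)).natDegree = 2 * (q * q) + q - 1 := by
  have hid := Haupt.rPoly_identity hH (Haupt.tSeries L) hΦ.root k
  set t := coeffMap (Int.castRingHom k) (Haupt.tSeries L) with ht
  have ht' : t = Haupt.tOf L k := rfl
  have ht1 : t.order = -1 := by
    refine Haupt.order_eq_of_coeff ?_ fun m hm => ?_
    · rw [ht', coeff_tOf_neg_one]; exact one_ne_zero
    · rw [ht', coeff_tOf_of_lt L k hm]
  have hθ : (theta t).order = -1 := by
    refine Haupt.order_eq_of_coeff ?_ fun m hm => ?_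
    · rw [FLTA.Igusa.theta_coeff, ht', coeff_tOf_neg_one, mul_one]
      simp
    · rw [FLTA.Igusa.theta_coeff, ht', coeff_tOf_of_lt L k hm, mul_zero]
  have hθ0 : theta t ≠ 0 := fun h => by
    rw [h, HahnSeries.order_zero] at hθ
    omega
  have hD : ((dPoly q).map (Int.castRingHom k)).natDegree = q * q := by
    rw [dPoly, Polynomial.map_sub, Polynomial.map_pow, map_X]
    exact FiniteField.X_pow_card_sub_X_natDegree_eq k (by nlinarith [hq.out.two_le])
  have hD0 : (dPoly q).map (Int.castRingHom k) ≠ 0 := fun h => by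
    rw [h, natDegree_zero] at hD
    nlinarith [hq.out.two_le]
  have hA : ∀ P : ℤ[X], aeval t P = aeval t (P.map (Int.castRingHom k)) := fun P => by
    rw [aeval_def, aeval_def, eval₂_map]
    exact congrArg (fun f => P.eval₂ f t) (RingHom.ext_int _ _)
  rw [hA, hA] at hid
  obtain ⟨hd0, hdo⟩ := Haupt.order_aeval_of_pole ht1 hD0
  have hR : (rPoly q H).map (Int.castRingHom k) ≠ 0 := fun h => by
    rw [h, map_zero, zero_mul, eq_comm] at hid
    exact mul_ne_zero (pow_ne_zero _ hd0) (pow_ne_zero _ hθ0) hid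
  obtain ⟨hR0, hRo⟩ := Haupt.order_aeval_of_pole ht1 hR
  refine ⟨hR, ?_⟩
  have h := congrArg HahnSeries.order hid
  rw [HahnSeries.order_mul hR0 hθ0, HahnSeries.order_mul (pow_ne_zero _ hd0) (pow_ne_zero _ hθ0),
    HahnSeries.order_pow, HahnSeries.order_pow, hθ, hRo, hdo, hD] at h
  simp only [nsmul_eq_mul, Nat.cast_ofNat, mul_neg, mul_one] at h
  push_cast at h
  omega

/-- `R₀ Q = D² P^N` in every field of characteristic `q`. -/
theorem exists_rPoly_mul {Φ H : ℤ[X][X]} {L : ℕ} [NeZero L] (hL : Haupt.IsHauptLevel L)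
    (hΦ : Haupt.IsModEq q L Φ)
    (hH : Φ = (X ^ q - C X) * (X - C (X ^ q)) + (q : ℤ[X][X]) * H) :
    ∃ (Q₁ : ℤ[X]) (N : ℕ), ∀ (k : Type) [Field k] [CharP k q],
      (rPoly q H * Q₁).map (Int.castRingHom k) =
        (dPoly q ^ 2 * Haupt.cuspPoly L ^ N).map (Int.castRingHom k) := by
  obtain ⟨χ, hm, hd, hχ⟩ := hΦ.exists_chi hL
  obtain ⟨ζ₁, hζ₁, hζC⟩ := Haupt.exists_zetaOC q
  have hOC : χ.map (Haupt.psiQ q L Haupt.OC) = Haupt.vProd q L ζ₁ := by
    refine Polynomial.map_injective (coeffMap (algebraMap Haupt.OC ℂ)) (fun x y hxy => ?_) ?_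
    · ext n
      exact congrArg Subtype.val (show x.coeff n = y.coeff n from Subtype.val_injective
        (by simpa using congrArg (fun z : LaurentSeries ℂ => z.coeff n) hxy))
    · rw [Polynomial.map_map, Haupt.coeffMap_comp_psiQ, hχ, Haupt.map_vProd, hζC]
  obtain ⟨-, hρ⟩ := Haupt.exists_rho q L hζ₁.pow_eq_one hOC
  obtain ⟨k₀, _, _, φ, hφ⟩ := Haupt.exists_charP_field q
  have hρ := hρ k₀ φ (hφ ζ₁ hζ₁.pow_eq_one)
  obtain ⟨Q₁, N, hQ⟩ := Haupt.exists_toT_eq L (-χ.coeff 1)
  refine ⟨Q₁, N, fun k _ _ => ?_⟩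
  have hR := Haupt.rPoly_identity hH (Haupt.tSeries L) hΦ.root k₀
  change Haupt.psiBase L k₀ (rPoly q H) * theta (Haupt.tOf L k₀) =
    Haupt.psiBase L k₀ (dPoly q) ^ 2 * theta (Haupt.tOf L k₀) ^ q at hR
  have h1 : (rPoly q H * Q₁ - dPoly q ^ 2 * Haupt.cuspPoly L ^ N).map
      (Int.castRingHom k₀) = 0 := by
    rw [← Haupt.psiBase_eq_zero_iff L, map_sub, sub_eq_zero, map_mul, map_mul, map_pow, map_pow,
      ← Haupt.psi_toT L k₀ Q₁, ← hQ, map_mul, map_pow, Haupt.psi_toT]
    refine ((Haupt.isUnit_theta_tOf L).pow q).mul_right_cancel ?_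
    linear_combination Haupt.psiBase L k₀ (rPoly q H) *
      (Haupt.psiBase L k₀ (Haupt.cuspPoly L)) ^ N * hρ +
        (Haupt.psiBase L k₀ (Haupt.cuspPoly L)) ^ N * hR
  refine Polynomial.ext fun i => ?_
  have h2 := congrArg (fun p => p.coeff i) h1
  simp only [coeff_map, coeff_zero, coeff_sub, eq_intCast] at h2 ⊢
  rw [← sub_eq_zero, ← Int.cast_sub]
  exact (CharP.intCast_eq_zero_iff k q _).mpr ((CharP.intCast_eq_zero_iff k₀ q _).mp h2)

/-- **The count.** -/
theorem card_supersingular_le {Φ H : ℤ[X][X]} {k : Type} [Field k] [IsAlgClosed k] [CharP k q]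
    (hq2 : q ≠ 2) (hΦ : Haupt.IsModEq q 4 Φ)
    (hH : Φ = (X ^ q - C X) * (X - C (X ^ q)) + (q : ℤ[X][X]) * H) (Z : Finset k)
    (hZ : ∀ c ∈ Z, c ^ (q * q) = c ∧ c * (c + 16) ≠ 0 ∧
      ((hPoly q H).map (Int.castRingHom k)).eval c ≠ 0) :
    Z.card ≤ (q - 1) / 2 := by
  classical
  have hL : Haupt.IsHauptLevel 4 := Or.inl rfl
  obtain ⟨hR, hdeg⟩ := natDegree_rPoly (k := k) hΦ hH
  obtain ⟨Q₁, N, hQ⟩ := exists_rPoly_mul hL hΦ hH
  have hQk := hQ k
  rw [Polynomial.map_mul, Polynomial.map_mul, Polynomial.map_pow, Polynomial.map_pow] at hQk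
  set R := (rPoly q H).map (Int.castRingHom k) with hRdef
  set D := (dPoly q).map (Int.castRingHom k) with hDdef
  set P := (Haupt.cuspPoly 4).map (Int.castRingHom k) with hPdef
  have hDeq : D = X ^ (q * q) - X := by simp [hDdef, dPoly]
  have hPeq : P = X ^ 2 + C 16 * X := by
    rw [hPdef, Haupt.cuspPoly, if_pos rfl]
    simp [map_ofNat]
  have hk2 : (2 : k) ≠ 0 := by
    intro h
    exact hq2 ((Nat.prime_dvd_prime_iff_eq hq.out Nat.prime_two).1
      ((CharP.cast_eq_zero_iff k q 2).1 (by exact_mod_cast h)))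
  have hqq : 1 < q * q := by nlinarith [hq.out.two_le]
  have hD0 : D ≠ 0 := hDeq ▸ FiniteField.X_pow_card_sub_X_ne_zero k hqq
  have hP0 : P ≠ 0 := hPdef ▸ ((Haupt.monic_cuspPoly 4).map _).ne_zero
  have h16 : (16 : k) ≠ 0 := by
    rw [show (16 : k) = 2 ^ 4 by norm_num]
    exact pow_ne_zero _ hk2
  have hint : ∀ a : ℤ, (a : k) ^ (q * q) = a := fun a => by
    have h1 : (a : k) ^ q = a := intCast_pow_q k a
    rw [pow_mul, h1, h1]
  set s := D.roots.toFinset with hs
  have hmem : ∀ x, x ∈ s ↔ x ^ (q * q) = x := fun x => by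
    rw [hs, Multiset.mem_toFinset, mem_roots hD0, IsRoot, hDeq, eval_sub, eval_pow, eval_X,
      sub_eq_zero]
  have hmult : ∀ x ∈ s, D.rootMultiplicity x = 1 := fun x hx => by
    refine le_antisymm ?_ ((rootMultiplicity_pos hD0).2 (by
      rw [hs, Multiset.mem_toFinset, mem_roots hD0] at hx
      exact hx))
    by_contra hlt
    have h2 := (one_lt_rootMultiplicity_iff_isRoot hD0).1 (not_le.1 hlt)
    rw [hDeq] at h2
    simp [derivative_X_pow] at h2
  have hcusp : ∀ x : k, P.eval x = 0 → x ∈ s := fun x hx => by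
    rw [hPeq] at hx
    simp only [eval_add, eval_pow, eval_X, eval_mul, eval_C] at hx
    rw [hmem]
    rcases mul_eq_zero.1 (show x * (x + 16) = 0 by linear_combination hx) with rfl | h
    · exact zero_pow (by omega)
    · rw [show x = ((-16 : ℤ) : k) by push_cast; linear_combination h]
      exact hint _
  have hQ1 : (Q₁.map (Int.castRingHom k)) ≠ 0 := fun h => by
    rw [h, mul_zero, eq_comm] at hQk
    exact mul_ne_zero (pow_ne_zero _ hD0) (pow_ne_zero _ hP0) hQk
  have hle : ∀ x, P.eval x ≠ 0 → R.rootMultiplicity x ≤ 2 * D.rootMultiplicity x := fun x hx => by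
    have h := congrArg (rootMultiplicity x) hQk
    rw [rootMultiplicity_mul (mul_ne_zero hR hQ1),
      rootMultiplicity_mul (mul_ne_zero (pow_ne_zero _ hD0) (pow_ne_zero _ hP0)),
      rootMultiplicity_pow_aux, rootMultiplicity_pow_aux,
      rootMultiplicity_eq_zero (p := P) hx, mul_zero, add_zero] at h
    omega
  have hsub : ∀ x ∈ R.roots, x ∈ s := fun x hx => by
    by_cases hPx : P.eval x = 0
    · exact hcusp x hPx
    have h1 := (rootMultiplicity_pos hR).2 ((mem_roots hR).1 hx)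
    have h2 : 0 < D.rootMultiplicity x := by have := hle x hPx; omega
    rw [hs, Multiset.mem_toFinset, mem_roots hD0]
    exact (rootMultiplicity_pos hD0).1 h2
  have hsum : ∑ x ∈ s, R.rootMultiplicity x = 2 * (q * q) + q - 1 := by
    rw [← hdeg, ← (IsAlgClosed.splits R).natDegree_eq_card_roots.symm,
      ← Multiset.toFinset_sum_count_eq]
    simp only [count_roots]
    refine (Finset.sum_subset (fun x hx => hsub x (Multiset.mem_toFinset.1 hx)) fun x _ hx => ?_).symm
    rw [Multiset.mem_toFinset, ← Multiset.count_eq_zero, count_roots] at hx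
    exact hx
  have hscard : s.card = q * q := by
    rw [hs, Multiset.toFinset_card_of_nodup, ← (IsAlgClosed.splits D).natDegree_eq_card_roots, hDeq,
      FiniteField.X_pow_card_sub_X_natDegree_eq k hqq]
    rw [Multiset.nodup_iff_count_le_one]
    intro x
    rw [count_roots]
    by_cases hx : x ∈ s
    · exact (hmult x hx).le
    · rw [hs, Multiset.mem_toFinset, ← Multiset.count_eq_zero, count_roots] at hx
      omega
  -- the two cusps
  have hrel := fun η : ℤ => fun hη : η ^ 2 = 1 =>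
    (hΦ.cuspRel_eq_zero hL (ℓ := 2) rfl (by
      have := hq.out.eq_two_or_odd.resolve_left hq2
      rw [Nat.mul_mod, this]) (z₀ := η) hη).1
  have hm0 : R.rootMultiplicity (0 : k) = q + 1 := by
    have h := rootMultiplicity_rPoly (k := k) hH (η := 1) (hrel 1 (one_pow 2)) (one_pow q) (by
      simp only [one_mul]
      push_cast
      rw [show (256 : k) = 2 ^ 8 by norm_num]
      exact pow_ne_zero _ hk2) hR
    simpa using h
  have hm1 : R.rootMultiplicity (-16 : k) = q + 1 := by
    have h := rootMultiplicity_rPoly (k := k) hH (η := -1) (hrel (-1) (by norm_num))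
      ((hq.out.eq_two_or_odd'.resolve_left hq2).neg_one_pow) (by
        push_cast
        rw [show (-256 : k) = -(2 ^ 8) by norm_num, neg_ne_zero]
        exact pow_ne_zero _ hk2) hR
    have e : ((8 * ((-1 : ℤ) - 1) : ℤ) : k) = -16 := by norm_num
    rwa [e] at h
  have hne : (0 : k) ≠ -16 := fun h => h16 (by linear_combination h)
  have hPz : ∀ x : k, x ≠ 0 → x ≠ -16 → P.eval x ≠ 0 := fun x h0 h1 hx => by
    rw [hPeq] at hx
    simp only [eval_add, eval_pow, eval_X, eval_mul, eval_C] at hx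
    rcases mul_eq_zero.1 (show x * (x + 16) = 0 by linear_combination hx) with h | h
    · exact h0 h
    · exact h1 (by linear_combination h)
  have hZs : Z ⊆ (s.erase 0).erase (-16) := fun c hc => by
    obtain ⟨h1, h2, -⟩ := hZ c hc
    refine Finset.mem_erase.2 ⟨fun h => h2 (by rw [h]; ring), Finset.mem_erase.2
      ⟨fun h => h2 (by rw [h, zero_mul]), (hmem c).2 h1⟩⟩
  have hZ0 : ∀ c ∈ Z, R.rootMultiplicity c = 0 := fun c hc => by
    obtain ⟨h1, -, h3⟩ := hZ c hc
    refine rootMultiplicity_eq_zero ?_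
    rw [IsRoot, hRdef, rPoly]
    simp only [Polynomial.map_sub, Polynomial.map_add, Polynomial.map_neg, Polynomial.map_mul,
      Polynomial.map_pow, map_X, eval_sub, eval_add, eval_neg, eval_mul, eval_pow, eval_X]
    rw [← hDdef, show D.eval c = 0 by simp [hDeq, h1]]
    simpa using h3
  have h0s : (0 : k) ∈ s := (hmem 0).2 (zero_pow (by omega))
  have h1s : (-16 : k) ∈ s.erase 0 := Finset.mem_erase.2 ⟨hne.symm, (hmem _).2 (by
    rw [show (-16 : k) = ((-16 : ℤ) : k) by norm_num]; exact hint _)⟩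
  set s' := (s.erase 0).erase (-16 : k) with hs'
  have e1 : ∑ x ∈ s, R.rootMultiplicity x = (q + 1) + ((q + 1) + ∑ x ∈ s', R.rootMultiplicity x) := by
    rw [← Finset.add_sum_erase s _ h0s, ← Finset.add_sum_erase _ _ h1s, hm0, hm1]
  have e2 : ∑ x ∈ s', R.rootMultiplicity x ≤ 2 * (s'.card - Z.card) := by
    rw [← Finset.sum_sdiff hZs, Finset.sum_eq_zero hZ0, add_zero, mul_comm]
    refine (Finset.sum_le_card_nsmul _ _ 2 fun x hx => ?_).trans (le_of_eq ?_)
    · simp only [Finset.mem_sdiff, Finset.mem_erase, hs'] at hx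
      have h1 := hle x (hPz x hx.1.2.1 hx.1.1)
      rw [hmult x hx.1.2.2] at h1
      exact h1
    · rw [smul_eq_mul, Finset.card_sdiff_of_subset hZs]
  have hc' : s'.card = q * q - 2 := by
    rw [hs', Finset.card_erase_of_mem h1s, Finset.card_erase_of_mem h0s, hscard]
    omega
  have hle' := Finset.card_le_card hZs
  rw [hsum] at e1
  omega

variable {W : Type} [CommRing W] [IsDomain W] [IsDiscreteValuationRing W] [CharZero W]
  [IsAdicComplete (maximalIdeal W) W] [IsAlgClosed (ResidueField W)]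

/-- An ordinary point has a root of the specialised equation. -/
theorem exists_eval_eq_zero_ordinary {L : ℕ} [NeZero L]
    (hW : maximalIdeal W = Ideal.span {(q : W)}) {Φ H : ℤ[X][X]} (hΦ : Haupt.IsModEq q L Φ)
    (hH : Φ = (X ^ q - C X) * (X - C (X ^ q)) + (q : ℤ[X][X]) * H)
    {χ : (Haupt.TRing L)[X]} {ρ : Haupt.TRing L} (hχ : χ.Monic)
    (hK : ∀ (K : Type) [Field K] [CharZero K] (f : Haupt.TRing L →+* K),
        Function.Injective (f.comp (Haupt.toT L)) →
          (Φ.map (f.comp (Haupt.toT L))).Separable ∧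
          ∀ [Module.Free K (AdjoinRoot (Φ.map (f.comp (Haupt.toT L))))]
            [Module.Finite K (AdjoinRoot (Φ.map (f.comp (Haupt.toT L))))],
            (LinearMap.mulLeft K (Haupt.vElt q Φ (f.comp (Haupt.toT L)))).charpoly = χ.map f)
    (hmod : C (q : Haupt.TRing L) ∣ χ - X * (X ^ q - C ρ))
    (t₀ : W) (g : Haupt.TRing L →+* PowerSeries W)
    (hg : g.comp (Haupt.toT L) = (pointMap W t₀ 1).comp (mapRingHom (Int.castRingHom W)))
    (hρ : IsUnit (g ρ)) : ∃ x, (phiAt Φ (pointHom W t₀ 1)).eval x = 0 := by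
  have : Fact (Prime (PowerSeries.C (q : W) : PowerSeries W)) := ⟨by
    rw [map_natCast]; exact prime_natCast_powerSeries hW⟩
  refine (exists_root_ordinary_aux hW hΦ hH hχ hK hmod t₀ g hg hρ (n := 1) one_pos
    (Nat.coprime_one_left q) (map_natCast PowerSeries.C q) (toHatFrac q)
    (fun f => IsLocalization.map_eq _ f) (Ψ := phiAt Φ (pointHom W t₀ 1))
    (by rw [phiAt, specPhi, Polynomial.map_map, hg]; rfl) 1 isUnit_one
    (fun F _ ψ v _ => ⟨1, by simp⟩) ⟨1, by simp⟩).1

/-- At most `(q - 1) / 2` residue classes carry nodes. -/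
theorem card_ssValue_le (hW : maximalIdeal W = Ideal.span {(q : W)}) (hq2 : q ≠ 2)
    {Φ : ℤ[X][X]} (hΦ : Haupt.IsModEq q 4 Φ) (Z : Finset (ResidueField W))
    (hZ : ∀ c ∈ Z, IsSSValue 4 Φ c) : Z.card ≤ (q - 1) / 2 := by
  have hL : Haupt.IsHauptLevel 4 := Or.inl rfl
  have hqp : q.Prime := hq.out
  have hqL : ¬ q ∣ 4 := fun h =>
    hq2 ((Nat.prime_dvd_prime_iff_eq hqp Nat.prime_two).1 (hqp.dvd_of_dvd_pow (n := 2) h))
  have := charP_residueW hW
  obtain ⟨H, hH⟩ := hΦ.exists_kronecker hL hqL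
  refine card_supersingular_le hq2 hΦ hH Z fun c hc => ?_
  obtain ⟨t₀, rfl, ht, hD⟩ := hZ c hc
  obtain ⟨χ, ρ, hχm, -, hchar, hχmod, hkey⟩ := hΦ.exists_vPoly hL hqL hH
  obtain ⟨g, hg⟩ := exists_pointTRing t₀ ht
  have hρ : ¬ IsUnit (g ρ) := by
    intro hu
    obtain ⟨x, hx⟩ := exists_eval_eq_zero_ordinary hW hΦ hH hχm hchar hχmod t₀ g hg hu
    refine not_isDomain_of_root ?_ hx hD
    rw [hΦ.monic.natDegree_map, hΦ.natDegree]
    have := hqp.pos
    omega
  set f : Haupt.TRing 4 →+* ResidueField W :=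
    ((residue W).comp PowerSeries.constantCoeff).comp g with hf
  have hfρ : f ρ = 0 := by
    rw [hf, RingHom.comp_apply, RingHom.comp_apply, residue_eq_zero_iff]
    rw [PowerSeries.isUnit_iff_constantCoeff] at hρ
    exact hρ
  have hfT : ∀ A : ℤ[X], f (Haupt.toT 4 A) =
      (A.map (Int.castRingHom (ResidueField W))).eval (residue W t₀) := fun A => by
    rw [eval_map]
    have e : f.comp (Haupt.toT 4) =
        eval₂RingHom (Int.castRingHom (ResidueField W)) (residue W t₀) := by
      rw [hf, RingHom.comp_assoc, hg]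
      refine Polynomial.ringHom_ext' (RingHom.ext_int _ _) ?_
      simp [pointMap]
    exact RingHom.congr_fun e A
  obtain ⟨hτ, hH0⟩ := hkey _ f hfρ
  rw [hfT, map_X, eval_X] at hτ
  rw [hfT, map_X, eval_X] at hH0
  refine ⟨hτ, fun h => ?_, fun h => hH0 ?_⟩
  · have hu : IsUnit (residue W (((Haupt.cuspPoly 4).map (Int.castRingHom W)).eval t₀)) := ht.map _
    refine hu.ne_zero ?_
    rw [← eval₂_at_apply, eval₂_map]
    simp [Haupt.cuspPoly]
    linear_combination h
  · rw [hPoly, eval_map, ← coe_eval₂RingHom, Polynomial.hom_eval₂ H] at h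
    refine Eq.trans ?_ h
    refine congrArg₂ (fun φ z => H.eval₂ φ z) (Polynomial.ringHom_ext' (RingHom.ext_int _ _) ?_) ?_
    · simp
    · simp

end FLTA.Carayol
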