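import Fermat.Agent.Carayol.PointCusp

/-!
# The modular equation has a root over the cusps

So nodes only lie over points which are not cusps.
-/

set_option autoImplicit false

noncomputable section

open Polynomial IsLocalRing

namespace FLTA.Carayol

variable {W : Type} [CommRing W] [IsDomain W] [IsDiscreteValuationRing W] [CharZero W]
  [IsAdicComplete (maximalIdeal W) W] [IsAlgClosed (ResidueField W)]
  {q L : ℕ} [Fact q.Prime] [NeZero L]

theorem not_isDomain_of_root {K : Type} [Field K] {Ψ : K[X]} (hd : 1 < Ψ.natDegree) {x : K}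
    (hx : Ψ.eval x = 0) : ¬ IsDomain (AdjoinRoot Ψ) := by
  intro hD
  have hne : Ψ ≠ 0 := fun h => by rw [h, natDegree_zero] at hd; omega
  have hirr : Irreducible Ψ :=
    ((Ideal.span_singleton_prime hne).1 ((Ideal.Quotient.isDomain_iff_prime _).1 hD)).irreducible
  have h := degree_eq_one_of_irreducible_of_root hirr hx
  rw [natDegree_eq_of_degree_eq_some (n := 1) h] at hd
  omega

/-- The root at a finite cusp value. -/
theorem exists_eval_eq_zero_cusp (hW : maximalIdeal W = Ideal.span {(q : W)})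
    (hL : Haupt.IsHauptLevel L) (hqL : ¬ q ∣ L)
    {Φ : ℤ[X][X]} (hΦ : Haupt.IsModEq q L Φ) (t₀ : W)
    (ht₀ : ((Haupt.cuspPoly L).map (Int.castRingHom W)).eval t₀ = 0)
    {e : ℕ} (he : 0 < e) (heq : e.Coprime q) :
    ∃ x, (phiAt Φ (pointHom W t₀ e)).eval x = 0 := by
  have hq : q.Prime := Fact.out
  have hLW : IsUnit (L : W) :=
    isUnit_natCast_of_coprime hW (hq.coprime_iff_not_dvd.2 hqL).symm
  obtain ⟨g, g', hg0, hg1, -, -, -, hB⟩ := hΦ.exists_cuspSeries hL hqL hLW t₀ ht₀
  obtain ⟨θ, hθC, hθ⟩ := exists_cuspParam hW he heq (h := g - PowerSeries.C t₀) (by simp [hg0])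
    (by simpa [PowerSeries.coeff_C] using hg1)
  let E : PowerSeries W →+* PowerSeries W := (PowerSeries.expand e he.ne').toRingHom
  let ι : PowerSeries W →+* FractionRing (PowerSeries W) := algebraMap _ _
  have hT : θ (pointMap W t₀ e X) = E g := by
    simp [pointMap, hθC, hθ, E, PowerSeries.expand_C]
  refine ⟨ι (θ.symm (E (PowerSeries.expand q (NeZero.ne q) g'))), ?_⟩
  have e1 : (pointHom W t₀ e).comp (mapRingHom (Int.castRingHom W)) =
      (ι.comp (θ.symm.toRingHom.comp E)).comp (aeval g).toRingHom :=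
    Polynomial.ringHom_ext' (RingHom.ext_int _ _) (by
      simp [pointHom, ι, ← hT])
  rw [eval_map, e1, show ι (θ.symm (E _)) =
    (ι.comp (θ.symm.toRingHom.comp E)) (PowerSeries.expand q (NeZero.ne q) g') from rfl,
    ← hom_eval₂, hB, map_zero]

/-- The root at infinity. -/
theorem exists_eval_eq_zero_inf (hW : maximalIdeal W = Ideal.span {(q : W)})
    (hL : Haupt.IsHauptLevel L) (hqL : ¬ q ∣ L)
    {Φ : ℤ[X][X]} (hΦ : Haupt.IsModEq q L Φ) {e : ℕ} (he : 0 < e) (heq : e.Coprime q) :
    ∃ x, (phiAt Φ (infHom W e)).eval x = 0 := by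
  have hq : q.Prime := Fact.out
  set h : PowerSeries W := PowerSeries.map (Int.castRingHom W) (Haupt.tInv L) with hh
  have h0 : PowerSeries.constantCoeff h = 0 := by
    rw [hh, ← PowerSeries.coeff_zero_eq_constantCoeff_apply, PowerSeries.coeff_map,
      PowerSeries.coeff_zero_eq_constantCoeff_apply, Haupt.constantCoeff_tInv, map_zero]
  have h1 : PowerSeries.coeff 1 h = 1 := by
    rw [hh, PowerSeries.coeff_map, Haupt.coeff_one_tInv, map_one]
  obtain ⟨θ, hθC, hθ⟩ := exists_cuspParam hW he heq h0 (h1 ▸ isUnit_one)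
  let E : PowerSeries W →+* PowerSeries W := (PowerSeries.expand e he.ne').toRingHom
  let ι : PowerSeries W →+* FractionRing (PowerSeries W) := algebraMap _ _
  let c : PowerSeries ℤ →+* PowerSeries W := PowerSeries.map (Int.castRingHom W)
  have hι : Function.Injective ι := IsFractionRing.injective _ _
  have hX : c PowerSeries.X ≠ 0 := by simp [c, PowerSeries.X_ne_zero]
  have hinf : infHom W e X = (ι (PowerSeries.X ^ e))⁻¹ := by
    simp [infHom, ι, inv_pow]
  refine ⟨(ι (θ.symm (E (PowerSeries.expand q hq.ne_zero h))))⁻¹, ?_⟩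
  rw [eval_map]
  have h2 := hΦ.eval₂_tInv_swap (ι.comp ((θ.symm.toRingHom.comp E).comp c)) ?_
    ((infHom W e).comp (mapRingHom (Int.castRingHom W))) ?_
  · simpa [c, h, E, PowerSeries.map_expand] using h2
  · exact (map_ne_zero_iff ι hι).2 ((map_ne_zero_iff (θ.symm.toRingHom.comp E)
      (θ.symm.injective.comp (expand_injective e he.ne'))).2 hX)
  · simp only [RingHom.comp_apply, coe_mapRingHom, map_X, hinf]
    congr 2
    rw [show θ.symm.toRingHom (E (c (Haupt.tInv L))) = θ.symm (E h) from rfl,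
      show E h = θ (PowerSeries.X ^ e) from hθ.symm, RingEquiv.symm_apply_apply]

end FLTA.Carayol
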