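import Fermat.Agent.Carayol.Core

/-!
# The Gauss model and the maps at a node

The choices at the Gauss point are bundled, and a map of the Gauss field to the completion at a
node is determined by its restriction to the cover.
-/

set_option autoImplicit false

noncomputable section

open Polynomial IsLocalRing

namespace FLTA.Carayol

theorem hom_eq_of_hat {R : Type*} [CommRing R] [IsDomain R] [IsNoetherianRing R] (π : R)
    [Fact (Prime π)] {B : Type*} [CommRing B] [IsDomain B] [IsDiscreteValuationRing B]
    {F F' : HatAt π →+* B} (h : F.comp (toHat π) = F'.comp (toHat π))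
    (hπ : F (toHat π π) ∈ maximalIdeal B) (hu : ∀ r : R, ¬ π ∣ r → F (toHat π r) ≠ 0) :
    F = F' := by
  have hh : ∀ r, F (toHat π r) = F' (toHat π r) := fun r => RingHom.congr_fun h r
  have key : ∀ (m : ℕ) (a : HatAt π), F (toHat π π) ^ m ∣ F a - F' a ∨
      ∃ b : B, b ≠ 0 ∧ F (toHat π π) ^ m ∣ b * (F a - F' a) ∧ IsUnit b := by
    intro m
    induction m with
    | zero => exact fun a => Or.inl (by rw [pow_zero]; exact one_dvd _)
    | succ m ih =>
      intro a
      obtain ⟨r, t, ht, a', ha'⟩ := exists_residue_frac π a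
      have e : F (toHat π t) * (F a - F' a) = F (toHat π π) * (F a' - F' a') := by
        have h1 := congrArg F ha'
        have h2 := congrArg F' ha'
        simp only [map_sub, map_mul, ← hh] at h1 h2
        linear_combination h1 - h2
      have htu : IsUnit (F (toHat π t)) := (isUnit_toHat π ht).map F
      refine Or.inr ⟨_, hu t ht, ?_, htu⟩
      rw [e, pow_succ']
      refine mul_dvd_mul_left _ ?_
      rcases ih a' with h1 | ⟨b, -, h1, hb⟩
      · exact h1
      · exact (hb.dvd_mul_left).1 h1
  refine RingHom.ext fun a => sub_eq_zero.1 ?_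
  refine IsHausdorff.haus (I := maximalIdeal B) inferInstance _ fun m => ?_
  rw [SModEq.zero, smul_eq_mul, Ideal.mul_top]
  have hd : F (toHat π π) ^ m ∣ F a - F' a := by
    rcases key m a with h1 | ⟨b, -, h1, hb⟩
    · exact h1
    · exact (hb.dvd_mul_left).1 h1
  obtain ⟨c, hc⟩ := hd
  rw [hc]
  exact Ideal.mul_mem_right _ _ (Ideal.pow_mem_pow hπ m)

variable (W : Type) [CommRing W] [IsDomain W] [IsDiscreteValuationRing W]

/-- The choices at the Gauss point of the cover. -/
structure GaussModel (q : ℕ) [Fact (Prime (C (q : W) : W[X]))] (Φ : ℤ[X][X]) (Q : W[X][X]) where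
  /-- the integers -/
  A : Type
  [commRing : CommRing A]
  [isDomain : IsDomain A]
  [dvr : IsDiscreteValuationRing A]
  [complete : IsAdicComplete (maximalIdeal A) A]
  /-- the coefficients -/
  f : HatAt (C (q : W) : W[X]) →+* A
  /-- the field -/
  e : AdjoinRoot (Q.map (gaussHom W q)) ≃+* FractionRing A
  e_coeff : ∀ h, e (AdjoinRoot.of _ (algebraMap _ (FractionRing (HatAt (C (q : W) : W[X]))) h)) =
      algebraMap A (FractionRing A) (f h)
  max_eq : maximalIdeal A = Ideal.span {(q : A)}
  not_pow : ∀ c : ResidueField A, c ^ q ≠ residue A (gaussCoeff f X)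
  /-- the cover at the Gauss point -/
  g : CoverAlg W Q →+* FractionRing A
  g_base : g.comp (coverBase Q) = (algebraMap A (FractionRing A)).comp (gaussCoeff f)
  g_root : g (AdjoinRoot.root _) = e (AdjoinRoot.root _)
  /-- the distinguished root -/
  sA : RootSplit (phiAt Φ (gaussCoeff f))
  isGauss : IsGauss q (phiAt Φ (gaussCoeff f)) sA (gaussCoeff f X)

attribute [instance] GaussModel.commRing GaussModel.isDomain GaussModel.dvr GaussModel.complete

variable {W} [CharZero W] [IsAdicComplete (maximalIdeal W) W] [IsAlgClosed (ResidueField W)]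
  {q L : ℕ} [Fact q.Prime] [NeZero L] [Fact (Prime (C (q : W) : W[X]))]
  {Φ : ℤ[X][X]} {Q : W[X][X]}

omit [IsAdicComplete (maximalIdeal W) W] [IsAlgClosed (ResidueField W)] in
theorem nonempty_gaussModel (hL : Haupt.IsHauptLevel L) (hqL : ¬ q ∣ L)
    (hΦ : Haupt.IsModEq q L Φ) (hQ : LineCover W q L Q) : Nonempty (GaussModel W q Φ Q) := by
  have : Fact (Irreducible (Q.map (algebraMap W[X] (FractionRing W[X])))) := ⟨hQ.irreducible⟩
  obtain ⟨A, _, _, _, _, f, e, hfe, hmax, hpow⟩ := hQ.gauss
  obtain ⟨g, hg, hgr⟩ : ∃ g : CoverAlg W Q →+* AdjoinRoot (Q.map (gaussHom W q)),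
      g.comp (coverBase Q) = (AdjoinRoot.of _).comp (gaussHom W q) ∧
        g (AdjoinRoot.root _) = AdjoinRoot.root _ :=
    exists_coverMap (K := FractionRing W[X]) (gaussHom_injective (W := W) (q := q)) Q
  obtain ⟨sA, hs⟩ := exists_isGauss hL hqL hΦ f hmax hpow
  refine ⟨⟨A, f, e, hfe, hmax, hpow, e.toRingHom.comp g, ?_, by simp [hgr], sA, hs⟩⟩
  rw [RingHom.comp_assoc, hg]
  exact RingHom.ext fun p => hfe (toHat _ p)

namespace GaussModel

variable (m : GaussModel W q Φ Q)

omit [CharZero W] [IsAdicComplete (maximalIdeal W) W] [IsAlgClosed (ResidueField W)]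
  [Fact q.Prime] in
theorem phi_gauss :
    (phiAt Φ (gaussCoeff m.f)).map (algebraMap m.A (FractionRing m.A)) =
      (coverPhi Φ Q).map m.g := by
  rw [Polynomial.map_map, Polynomial.map_map]
  exact (congrArg (fun φ => Φ.map (φ.comp (mapRingHom (Int.castRingHom W)))) m.g_base).symm

/-- The three branches of the cover at the Gauss point. -/
def split : RootSplit ((coverPhi Φ Q).map m.g) :=
  ⟨algebraMap m.A (FractionRing m.A) m.sA.x₀, by
    rw [← m.phi_gauss, eval_map, eval₂_at_apply, m.sA.eval_x₀, map_zero]⟩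

theorem irreducible_split :
    Irreducible m.split.quo ∧ (∀ _ : Fact (Irreducible m.split.quo), Irreducible m.split.G) ∧
      m.split.quo.eval m.split.x₀ ≠ 0 := by
  let sA := m.sA.map (algebraMap m.A (FractionRing m.A))
  have hirr : Irreducible m.split.quo :=
    RootSplit.irreducible_quo_congr m.phi_gauss.symm m.split sA rfl m.isGauss.irreducible_quo
  have : Fact (Irreducible sA.quo) := ⟨m.isGauss.irreducible_quo⟩
  refine ⟨hirr, fun _ => RootSplit.irreducible_G_congr m.phi_gauss.symm m.split sA rfl
    m.isGauss.irreducible_G, ?_⟩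
  have hquoeq : m.split.quo = sA.quo := by
    exact congrArg (fun P => divDiff P (algebraMap m.A (FractionRing m.A) m.sA.x₀)) m.phi_gauss.symm
  rw [hquoeq]
  exact m.isGauss.quo_eval_x₀_ne_zero

variable {FU FM B : Type} [Field FU] [Field FM] [CommRing B] [IsDomain B]
  [IsDiscreteValuationRing B] [IsAdicComplete (maximalIdeal B) B] [Algebra B FM]
  [IsFractionRing B FM] {j : FU →+* FM} {β : W[X] →+* FU} {TB : B}
  {τ : CoverAlg W Q →+* FU} {jg : FractionRing m.A →+* FM}

/-- The branches stay irreducible at a node. -/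
theorem irreducible_map (hB : maximalIdeal B = Ideal.span {(q : B)})
    (hTB : algebraMap B FM TB = j (β X)) (hpow : ∀ c : ResidueField B, c ^ q ≠ residue B TB)
    (hτ : τ.comp (coverBase Q) = β) (hcomm : j.comp τ = jg.comp m.g) :
    Irreducible (m.split.map jg).quo ∧
      (∀ _ : Fact (Irreducible (m.split.map jg).quo), Irreducible (m.split.map jg).G) ∧
      (m.split.map jg).quo.eval (m.split.map jg).x₀ ≠ 0 := by
  obtain ⟨jA, hjA⟩ := exists_integral_map (q := q) (L := FM)
    (m.max_eq ▸ Ideal.mem_span_singleton_self _) hB (jg.comp (algebraMap m.A (FractionRing m.A)))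
  have hjA' : ∀ a, algebraMap B FM (jA a) = jg (algebraMap m.A (FractionRing m.A) a) := fun a =>
    RingHom.congr_fun hjA a
  have hjloc : IsLocalHom jA := ⟨fun a ha => by
    by_contra hna
    rw [← mem_nonunits_iff, ← IsLocalRing.mem_maximalIdeal, m.max_eq,
      Ideal.mem_span_singleton] at hna
    obtain ⟨a', rfl⟩ := hna
    rw [map_mul, map_natCast] at ha
    exact (IsLocalRing.mem_maximalIdeal _).1 (hB ▸ Ideal.mem_span_singleton_self _)
      (isUnit_of_mul_isUnit_left ha)⟩
  have hTAB : jA (gaussCoeff m.f X) = TB := IsFractionRing.injective B FM (by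
    rw [hjA', hTB, ← hτ, ← RingHom.comp_apply j, ← RingHom.comp_assoc, hcomm, RingHom.comp_assoc,
      m.g_base]
    rfl)
  have hsB := m.isGauss.map jA hB (fun c => hTAB ▸ hpow c)
  have eM : ((coverPhi Φ Q).map m.g).map jg =
      ((phiAt Φ (gaussCoeff m.f)).map jA).map (algebraMap B FM) := by
    rw [← m.phi_gauss]
    simp only [Polynomial.map_map]
    exact congrArg (fun φ => Φ.map φ) (RingHom.ext fun a => (hjA' _).symm)
  have hx : (m.split.map jg).x₀ = ((m.sA.map jA).map (algebraMap B FM)).x₀ := by
    rw [RootSplit.map_x₀, RootSplit.map_x₀, RootSplit.map_x₀, hjA']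
    rfl
  have hquoB := hsB.irreducible_quo (L := FM)
  have : Fact (Irreducible ((m.sA.map jA).map (algebraMap B FM)).quo) := ⟨hquoB⟩
  refine ⟨RootSplit.irreducible_quo_congr eM _ _ hx hquoB,
    fun _ => RootSplit.irreducible_G_congr eM _ _ hx hsB.irreducible_G, ?_⟩
  rw [RootSplit.quo_map, RootSplit.map_x₀, eval_map, eval₂_at_apply]
  exact (_root_.map_ne_zero _).2 m.irreducible_split.2.2

omit [IsAdicComplete (maximalIdeal B) B] in
/-- A map of the Gauss field to a node is determined by the cover. -/
theorem hom_unique [IsAdicComplete (maximalIdeal B) B]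
    (hB : maximalIdeal B = Ideal.span {(q : B)}) {jg' : FractionRing m.A →+* FM}
    (h : jg.comp m.g = jg'.comp m.g) : jg = jg' := by
  let e' := m.e.toRingHom
  suffices h' : jg.comp e' = jg'.comp e' by
    refine RingHom.ext fun x => ?_
    have := RingHom.congr_fun h' (m.e.symm x)
    simpa [e'] using this
  refine AdjoinRoot.ringHom_ext ?_ ?_
  · have hqH : ((q : ℕ) : HatAt (C (q : W) : W[X])) ∈ maximalIdeal _ := by
      have := toHat_self_mem (C (q : W) : W[X])
      rwa [show toHat (C (q : W) : W[X]) (C (q : W)) = (q : HatAt (C (q : W) : W[X])) from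
        map_natCast ((toHat (C (q : W) : W[X])).comp C) q] at this
    obtain ⟨F, hF⟩ := exists_integral_map (q := q) (L := FM) hqH hB
      ((jg.comp (algebraMap m.A (FractionRing m.A))).comp m.f)
    obtain ⟨F', hF'⟩ := exists_integral_map (q := q) (L := FM) hqH hB
      ((jg'.comp (algebraMap m.A (FractionRing m.A))).comp m.f)
    have hπ : toHat (C (q : W) : W[X]) (C (q : W)) = (q : HatAt (C (q : W) : W[X])) :=
      map_natCast ((toHat (C (q : W) : W[X])).comp C) q
    have hFT : ∀ p, algebraMap B FM (F (toHat _ p)) = jg (m.g (coverBase Q p)) := fun p => by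
      rw [← RingHom.comp_apply (algebraMap B FM), hF, ← RingHom.comp_apply m.g, m.g_base]
      rfl
    have hFT' : ∀ p, algebraMap B FM (F' (toHat _ p)) = jg' (m.g (coverBase Q p)) := fun p => by
      rw [← RingHom.comp_apply (algebraMap B FM), hF', ← RingHom.comp_apply m.g, m.g_base]
      rfl
    have hinj := IsFractionRing.injective B FM
    have e : F = F' := by
      refine hom_eq_of_hat _ (RingHom.ext fun p => hinj ?_) ?_ fun r hr h0 => ?_
      · rw [RingHom.comp_apply, RingHom.comp_apply, hFT, hFT']
        exact RingHom.congr_fun h _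
      · rw [hπ, map_natCast F, hB]
        exact Ideal.mem_span_singleton_self _
      · exact ((isUnit_toHat _ hr).map F).ne_zero h0
    refine IsLocalization.ringHom_ext (nonZeroDivisors (HatAt (C (q : W) : W[X])))
      (RingHom.ext fun x => ?_)
    simp only [RingHom.comp_apply, e', RingEquiv.toRingHom_eq_coe, RingHom.coe_coe, m.e_coeff]
    have h1 := RingHom.congr_fun hF x
    have h2 := RingHom.congr_fun hF' x
    simp only [RingHom.comp_apply] at h1 h2
    rw [← h1, ← h2, e]
  · have := RingHom.congr_fun h (AdjoinRoot.root _)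
    rwa [RingHom.comp_apply, RingHom.comp_apply, m.g_root] at this

end GaussModel

end FLTA.Carayol
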