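import Fermat.Agent.Carayol.Node.Span
import Fermat.Agent.Carayol.Node.Local
import Fermat.Agent.Carayol.Node.Adjust
import Fermat.Agent.Carayol.Node.Cusps

/-!
# Roots on the three branches and the pullbacks from level `q M`

A function on the level `q² M` with horizontal multiplicities divisible by `n` and roots on the
three Gauss branches becomes an `n`-th power after multiplying by two pullbacks of members of a
family of functions of level `q M`, as soon as this family is as large as the set of nodes allows.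
-/

set_option autoImplicit false
set_option maxHeartbeats 800000

noncomputable section

open Polynomial IsLocalRing

namespace FLTA.Carayol

/-- The residue classes over which the nodes lie. -/
def IsSSValue {W : Type} [CommRing W] [IsDomain W] [IsLocalRing W] (L : ℕ) [NeZero L]
    (Φ : ℤ[X][X]) (c : ResidueField W) : Prop :=
  ∃ t₀ : W, residue W t₀ = c ∧
    IsUnit (((Haupt.cuspPoly L).map (Int.castRingHom W)).eval t₀) ∧
    IsDomain (AdjoinRoot (phiAt Φ (pointHom W t₀ 1)))

variable {W : Type} [CommRing W] [IsDomain W] [IsDiscreteValuationRing W] [CharZero W]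
  [IsAdicComplete (maximalIdeal W) W] [IsAlgClosed (ResidueField W)]
  {q L : ℕ} [Fact q.Prime] [NeZero L] [Fact (Prime (C (q : W) : W[X]))]
  {Φ : ℤ[X][X]} {Q : W[X][X]}

/-- What is known at every point of the line. -/
structure LinePoint (q : ℕ) [Fact (Prime (PowerSeries.C (q : W) : PowerSeries W))] (Φ : ℤ[X][X])
    (Q : W[X][X]) (n : ℕ) (β : W[X] →+* FractionRing (PowerSeries W)) : Prop where
  const : ∀ w, β (C w) = algebraMap _ _ (PowerSeries.C w)
  splits : SplitsIn (Q.map β) Q.natDegree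
  param : ∃ TB : HatAt (PowerSeries.C (q : W) : PowerSeries W),
    algebraMap _ (FractionRing (HatAt (PowerSeries.C (q : W) : PowerSeries W))) TB =
      toHatFrac q (β X) ∧ ∀ c, c ^ q ≠ residue _ TB
  root : PointRoot (β.comp C) (toHatFrac q) (phiAt Φ β) n

omit [CharZero W] [IsAdicComplete (maximalIdeal W) W] [IsAlgClosed (ResidueField W)]
  [Fact q.Prime] in
theorem coverPhi_map {FU : Type} [Field FU] {β : W[X] →+* FU} {τ : CoverAlg W Q →+* FU}
    (hτ : τ.comp (coverBase Q) = β) : (coverPhi Φ Q).map τ = phiAt Φ β := by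
  rw [Polynomial.map_map, ← RingHom.comp_assoc, hτ]

variable [Fact (Prime (PowerSeries.C (q : W) : PowerSeries W))]

omit [IsAdicComplete (maximalIdeal W) W] [IsAlgClosed (ResidueField W)] [Fact q.Prime] in
/-- The local root at a point. -/
theorem LinePoint.exists_root {n : ℕ} {β : W[X] →+* FractionRing (PowerSeries W)}
    (hp : LinePoint q Φ Q n β) (m : GaussModel W q Φ Q) {y : Pairs (coverPhi Φ Q)}
    (hy : IsUnit y) (hhor : HorizDivisible Φ Q n y) {Y : Pairs ((coverPhi Φ Q).map m.g)}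
    (hY : Y ^ n = Pairs.map m.g rfl y) {τ : CoverAlg W Q →+* FractionRing (PowerSeries W)}
    (hτ : τ.comp (coverBase Q) = β)
    {jg : FractionRing m.A →+* FractionRing (HatAt (PowerSeries.C (q : W) : PowerSeries W))}
    (hcomm : (toHatFrac q).comp τ = jg.comp m.g) :
    (IsDomain (AdjoinRoot ((coverPhi Φ Q).map τ)) ∨
        ∃ x, ((coverPhi Φ Q).map τ).eval x = 0) ∧
      ∃ G, G ^ n = Pairs.map τ rfl y := by
  have hU : (coverPhi Φ Q).map τ = phiAt Φ β := coverPhi_map hτ
  have hzh : HorizOn (β.comp C) n (Pairs.map τ hU y) := by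
    have h : HorizOn ((coverBase Q).comp C) n y := hhor
    have h' := h.map τ hU
    rwa [← RingHom.comp_assoc, hτ] at h'
  have eY : ((coverPhi Φ Q).map m.g).map jg = (phiAt Φ β).map (toHatFrac q) := by
    rw [Polynomial.map_map, ← hcomm, ← Polynomial.map_map, hU]
  obtain ⟨hd, G, hG⟩ := hp.root _ (hy.map _) hzh
    ⟨Pairs.map jg eY Y, by
      rw [← map_pow, hY, Pairs.map_map_apply, Pairs.map_map_apply]
      exact Pairs.map_congr hcomm.symm _ _ _⟩
  exact ⟨by rw [hU]; exact hd, Pairs.cast hU.symm G, by rw [← map_pow, hG, Pairs.cast_map]⟩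

omit [IsAdicComplete (maximalIdeal W) W] in
/-- The map of the Gauss field at a point. -/
theorem LinePoint.exists_jg {n : ℕ} {β : W[X] →+* FractionRing (PowerSeries W)}
    (hp : LinePoint q Φ Q n β) (hW : maximalIdeal W = Ideal.span {(q : W)})
    (m : GaussModel W q Φ Q) {τ : CoverAlg W Q →+* FractionRing (PowerSeries W)}
    (hτ : τ.comp (coverBase Q) = β) :
    ∃ jg : FractionRing m.A →+* FractionRing (HatAt (PowerSeries.C (q : W) : PowerSeries W)),
      (toHatFrac q).comp τ = jg.comp m.g := by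
  have hqp : q.Prime := Fact.out
  obtain ⟨TB, hTB, hpow⟩ := hp.param
  let B := HatAt (PowerSeries.C (q : W) : PowerSeries W)
  let FM := FractionRing B
  let b : W[X] →+* B :=
    eval₂RingHom ((toHat (PowerSeries.C (q : W) : PowerSeries W)).comp PowerSeries.C) TB
  have hb : (algebraMap B FM).comp b = (toHatFrac q).comp β := by
    refine Polynomial.ringHom_ext (fun w => ?_) (by simpa [b] using hTB)
    rw [RingHom.comp_apply, RingHom.comp_apply, hp.const, toHatFrac_algebraMap]
    simp [b, B, FM]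
  have hqB : (q : B) ∈ maximalIdeal B :=
    maximalIdeal_hatSeries (W := W) (q := q) ▸ Ideal.mem_span_singleton_self _
  obtain ⟨F, hF⟩ := exists_hatHom hW b hqB fun c => by
    have : b X = TB := by simp [b]
    rw [this]
    exact hpow c
  have : CharZero (PowerSeries W) :=
    charZero_of_injective_ringHom (f := PowerSeries.C (R := W)) PowerSeries.C_injective
  have : CharZero B := charZero_of_injective_ringHom
    (f := toHat (PowerSeries.C (q : W) : PowerSeries W)) (toHat_injective _)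
  have hinj : Function.Injective ((algebraMap B FM).comp F) :=
    (IsFractionRing.injective B FM).comp (injective_of_hat hqp.ne_zero F)
  let Φf : FractionRing (HatAt (C (q : W) : W[X])) →+* FM := IsFractionRing.lift hinj
  have hΦf : Φf.comp (gaussHom W q) = (toHatFrac q).comp β := by
    rw [← hb, ← hF]
    ext p <;> simp [Φf, gaussHom]
  have hρ : (Q.map (gaussHom W q)).eval₂ Φf (toHatFrac q (τ (AdjoinRoot.root _))) = 0 := by
    rw [eval₂_map, hΦf, ← hτ]
    have h0 : (Q.map (algebraMap W[X] (FractionRing W[X]))).eval₂ (AdjoinRoot.of _)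
        (AdjoinRoot.root _) = (0 : CoverAlg W Q) := AdjoinRoot.eval₂_root _
    rw [eval₂_map] at h0
    rw [← hom_eval₂, ← hom_eval₂, show coverBase Q =
      (AdjoinRoot.of _).comp (algebraMap W[X] (FractionRing W[X])) from rfl, h0, map_zero, map_zero]
  refine ⟨(AdjoinRoot.lift Φf _ hρ).comp m.e.symm.toRingHom, ?_⟩
  have h1 : ∀ p, m.e.symm (m.g (coverBase Q p)) = AdjoinRoot.of _ (gaussHom W q p) := fun p => by
    rw [RingEquiv.symm_apply_eq, ← RingHom.comp_apply m.g, m.g_base]
    exact (m.e_coeff _).symm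
  refine AdjoinRoot.ringHom_ext (IsLocalization.ringHom_ext (nonZeroDivisors W[X])
    (RingHom.ext fun p => ?_)) ?_
  · have e1 := RingHom.congr_fun hτ p
    have e3 := RingHom.congr_fun hΦf p
    simp only [RingHom.comp_apply] at e1 e3 ⊢
    rw [show AdjoinRoot.of _ (algebraMap W[X] (FractionRing W[X]) p) = coverBase Q p from rfl]
    simp only [RingEquiv.toRingHom_eq_coe, RingHom.coe_coe, h1, AdjoinRoot.lift_of, e1, e3]
  · simp only [RingHom.comp_apply, RingEquiv.toRingHom_eq_coe, RingHom.coe_coe, m.g_root,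
      RingEquiv.symm_apply_apply, AdjoinRoot.lift_root]

/-- The choice of a point in every residue class. -/
theorem exists_linePoints (hW : maximalIdeal W = Ideal.span {(q : W)})
    (hL : Haupt.IsHauptLevel L) (hqL : ¬ q ∣ L) (hΦ : Haupt.IsModEq q L Φ)
    (hQ : LineCover W q L Q) {n : ℕ} (hn : 0 < n) (hnq : n.Coprime q) (o : Option (ResidueField W)) :
    ∃ β : W[X] →+* FractionRing (PowerSeries W), LinePoint q Φ Q n β ∧
      (IsDomain (AdjoinRoot (phiAt Φ β)) → ∃ c, o = some c ∧ IsSSValue L Φ c) ∧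
      (∀ c, o = some c → ∃ t₀ d, residue W t₀ = c ∧ 0 < d ∧ β = pointHom W t₀ d) ∧
      (o = none → ∃ d, 0 < d ∧ β = infHom W d) := by
  have hdeg : ∀ β : W[X] →+* FractionRing (PowerSeries W), 1 < (phiAt Φ β).natDegree := fun β => by
    rw [hΦ.monic.natDegree_map, hΦ.natDegree]
    have := (Fact.out : q.Prime).pos
    omega
  rcases o with _ | c
  · obtain ⟨d, hd, hdq, hsplit⟩ := hQ.splits_inf
    obtain ⟨TB, hTB, hTBpow⟩ := exists_infParam hW hdq
    refine ⟨infHom W d, ⟨fun w => by simp [infHom], hsplit, ⟨TB, hTB, hTBpow⟩,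
      pointRoot_inf hW hL hqL hΦ hd hdq hn hnq⟩, fun hD => ?_, fun c h => by simp at h,
      fun _ => ⟨d, hd, rfl⟩⟩
    obtain ⟨x, hx⟩ := exists_eval_eq_zero_inf hW hL hqL hΦ hd hdq
    exact absurd hD (not_isDomain_of_root (hdeg _) hx)
  · obtain ⟨t₀, hc, ht⟩ := exists_lift_cuspPoly hW hL hqL c
    rcases ht with ht | ht
    · refine ⟨pointHom W t₀ 1, ⟨fun w => by simp [pointHom, pointMap], hQ.splits_point t₀ ht,
        ⟨_, (toHatFrac_algebraMap (pointMap W t₀ 1 X)).symm,
          not_pow_point hW t₀ (Nat.coprime_one_left q)⟩,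
        pointRoot_point hW hL hqL hΦ t₀ ht hn hnq⟩,
        fun hD => ⟨c, rfl, t₀, hc, ht, hD⟩,
        fun c' h => ⟨t₀, 1, by rw [hc]; exact Option.some.inj h, Nat.one_pos, rfl⟩,
        fun h => by simp at h⟩
    · obtain ⟨d, hd, hdq, hsplit⟩ := hQ.splits_cusp t₀ ht
      refine ⟨pointHom W t₀ d, ⟨fun w => by simp [pointHom, pointMap], hsplit,
        ⟨_, (toHatFrac_algebraMap (pointMap W t₀ d X)).symm, not_pow_point hW t₀ hdq⟩,
        pointRoot_cusp hW hL hqL hΦ t₀ ht hd hdq hn hnq⟩, fun hD => ?_,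
        fun c' h => ⟨t₀, d, by rw [hc]; exact Option.some.inj h, hd, rfl⟩,
        fun h => by simp at h⟩
      obtain ⟨x, hx⟩ := exists_eval_eq_zero_cusp hW hL hqL hΦ t₀ ht hd hdq
      exact absurd hD (not_isDomain_of_root (hdeg _) hx)

/-- **Roots on the branches give a sum of two pullbacks.** -/
theorem exists_mul_pullbacks_eq_pow (hW : maximalIdeal W = Ideal.span {(q : W)})
    (hL : Haupt.IsHauptLevel L) (hqL : ¬ q ∣ L) (hΦ : Haupt.IsModEq q L Φ)
    (hQ : LineCover W q L Q) (m : GaussModel W q Φ Q) {n : ℕ} (hn : 0 < n) (hnq : n.Coprime q)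
    {b : ℕ} (hSS : ∀ Z : Finset (ResidueField W), (∀ c ∈ Z, IsSSValue L Φ c) → Z.card ≤ b)
    {I : Type} [Fintype I] (F : I → AdjoinRoot (coverPhi Φ Q)) (hF : ∀ i, IsUnit (F i))
    (hFhor : ∀ i, HorizDivisible Φ Q n (onFst _ (F i)))
    (hF₀ : ∀ i, ∃ g₀, g₀ ^ n = m.split.proj₀ (AdjoinRoot.map m.g _ _ dvd_rfl (F i)))
    (hF₁ : ∀ i, ∃ g₁, g₁ ^ n = m.split.proj₁ (AdjoinRoot.map m.g _ _ dvd_rfl (F i)))
    (hinj : ∀ i i', ∀ Z : AdjoinRoot (coverPhi Φ Q), IsUnit Z → F i = F i' * Z ^ n → i = i')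
    (hcard : n ^ (Q.natDegree * b - 1) ≤ Fintype.card I)
    (y : Pairs (coverPhi Φ Q)) (hy : IsUnit y) (hhor : HorizDivisible Φ Q n y)
    (Y : Pairs ((coverPhi Φ Q).map m.g)) (hY : Y ^ n = Pairs.map m.g rfl y) :
    ∃ (i i' : I) (Z : Pairs (coverPhi Φ Q)),
      Z ^ n = y * onFst _ (F i) * Pairs.swap _ (onFst _ (F i')) := by
  classical
  have hqp : q.Prime := Fact.out
  have : Fact (Irreducible (Q.map (algebraMap W[X] (FractionRing W[X])))) := ⟨hQ.irreducible⟩
  have hbase : Function.Injective ((coverBase Q).comp C) :=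
    ((RingHom.injective (AdjoinRoot.of (Q.map (algebraMap W[X] (FractionRing W[X]))) :
        FractionRing W[X] →+* CoverAlg W Q)).comp
      (IsFractionRing.injective W[X] (FractionRing W[X]))).comp C_injective
  obtain ⟨ζW, hζW⟩ := exists_isPrimitiveRoot (isUnit_natCast_of_coprime hW hnq)
  have hζ := hζW.map_of_injective hbase
  have hΨ : (coverPhi Φ Q).Monic := hΦ.monic.map _
  have hd : (coverPhi Φ Q).natDegree = q + 1 := by rw [hΦ.monic.natDegree_map, hΦ.natDegree]
  obtain ⟨hirr, hirrG, h0⟩ := m.irreducible_split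
  have := Fact.mk hirr
  have := Fact.mk (hirrG ⟨hirr⟩)
  choose β hβ hβss hβsome hβnone using
    exists_linePoints hW hL hqL hΦ hQ (Φ := Φ) (Q := Q) (n := n) hn hnq
  -- the supersingular values
  have hfin : {c : ResidueField W | IsSSValue L Φ c}.Finite := by
    by_contra hinf
    obtain ⟨Z, hZ, hcardZ⟩ := Set.Infinite.exists_subset_card_eq hinf (b + 1)
    have := hSS Z fun c hc => hZ hc
    omega
  -- the nodes
  let Node := {x : Σ c : hfin.toFinset,
      {τ : CoverAlg W Q →+* FractionRing (PowerSeries W) // τ.comp (coverBase Q) = β (some c.1)} //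
    IsDomain (AdjoinRoot (phiAt Φ (β (some x.1.1))))}
  have hroots : ∀ o, (Q.map (β o)) ≠ 0 ∧ (Q.map (β o)).roots.toFinset.card ≤ Q.natDegree := by
    intro o
    exact ⟨(hQ.monic.map _).ne_zero,
      ((Multiset.toFinset_card_le _).trans (Polynomial.card_roots' _)).trans
        (Polynomial.natDegree_map_le)⟩
  let rt : Node → Σ c : hfin.toFinset, (Q.map (β (some c.1))).roots.toFinset := fun x =>
    ⟨x.1.1, ⟨x.1.2.1 (AdjoinRoot.root _), by
      rw [Multiset.mem_toFinset, mem_roots (hroots _).1, IsRoot, eval_map]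
      have h0' : (Q.map (algebraMap W[X] (FractionRing W[X]))).eval₂ (AdjoinRoot.of _)
          (AdjoinRoot.root _) = (0 : CoverAlg W Q) := AdjoinRoot.eval₂_root _
      rw [eval₂_map] at h0'
      refine Eq.trans (congrArg (fun φ => Q.eval₂ φ _) x.1.2.2.symm) ?_
      show Q.eval₂ _ _ = 0
      rw [← hom_eval₂]
      exact (congrArg _ h0').trans (map_zero _)⟩⟩
  have hrt : Function.Injective rt := by
    rintro ⟨⟨c, τ, hτ⟩, hD⟩ ⟨⟨c', τ', hτ'⟩, hD'⟩ h
    simp only [rt] at h
    obtain ⟨rfl, h2⟩ := Sigma.mk.injEq .. ▸ h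
    have h3 : τ (AdjoinRoot.root _) = τ' (AdjoinRoot.root _) :=
      congrArg Subtype.val (eq_of_heq h2)
    have : τ = τ' := by
      refine AdjoinRoot.ringHom_ext (IsLocalization.ringHom_ext (nonZeroDivisors W[X]) ?_) h3
      exact (RingHom.comp_assoc _ _ _).trans (hτ.trans (hτ'.symm.trans
        (RingHom.comp_assoc _ _ _).symm))
    subst this
    rfl
  have : Finite Node := Finite.of_injective rt hrt
  let : Fintype Node := Fintype.ofFinite _
  have hN : Fintype.card Node ≤ Q.natDegree * b := by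
    refine (Fintype.card_le_of_injective rt hrt).trans ?_
    rw [Fintype.card_sigma]
    simp only [Fintype.card_coe]
    refine (Finset.sum_le_card_nsmul _ _ Q.natDegree fun c _ => (hroots _).2).trans ?_
    rw [Finset.card_univ, Fintype.card_coe, smul_eq_mul, mul_comm]
    exact Nat.mul_le_mul_left _ (hSS _ fun c hc => (hfin.mem_toFinset.1 hc))
  -- the maps at the nodes
  choose jg hjg using fun v : Node => (hβ (some v.1.1.1)).exists_jg hW m v.1.2.2
  have hirrv : ∀ (o : Option (ResidueField W))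
      (τ : CoverAlg W Q →+* FractionRing (PowerSeries W)), τ.comp (coverBase Q) = β o →
      ∀ jg : FractionRing m.A →+* FractionRing (HatAt (PowerSeries.C (q : W) : PowerSeries W)),
        (toHatFrac q).comp τ = jg.comp m.g →
        Irreducible (m.split.map jg).quo ∧
          (∀ _ : Fact (Irreducible (m.split.map jg).quo), Irreducible (m.split.map jg).G) := by
    intro o τ hτ jg hcomm
    obtain ⟨TB, hTB, hpow⟩ := (hβ o).param
    obtain ⟨h1, h2, -⟩ := m.irreducible_map maximalIdeal_hatSeries hTB hpow hτ hcomm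
    exact ⟨h1, h2⟩
  refine exists_pullback_decomp (S := Node) (C := CoverAlg W Q) (j := toHatFrac q) (jg := jg)
    (τ := fun v => v.1.2.1) hΨ hqp.one_lt.le hd hn.ne' hnq hζ m.split h0 hjg
    (fun v => (hirrv _ _ v.1.2.2 _ (hjg v)).1)
    (fun v => (hirrv _ _ v.1.2.2 _ (hjg v)).2 ⟨(hirrv _ _ v.1.2.2 _ (hjg v)).1⟩)
    (fun z => IsUnit z ∧ HorizDivisible Φ Q n z) (fun z hz => hz.1)
    (fun z z' hz hz' => ⟨hz.1.mul hz'.1, fun F _ ψ v hv => by
      obtain ⟨a, ha⟩ := hz.2 F ψ v hv
      obtain ⟨a', ha'⟩ := hz'.2 F ψ v hv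
      exact ⟨a * a', by rw [map_mul, map_mul, ha, ha', mul_pow]⟩⟩)
    (fun z hz => ⟨hz.1.map _, fun F _ ψ v hv => hz.2 F (ψ.comp (Pairs.swap _)) v fun w hw => by
      rw [RingHom.comp_apply, coverConst, RingHom.comp_apply, Pairs.swap_ofBase]
      exact hv w hw⟩)
    (fun z hz Y hY v => ((hβ _).exists_root m hz.1 hz.2 hY v.1.2.2 (hjg v)).2)
    ?_ F hF (fun i => ⟨(hF i).map _, hFhor i⟩) hF₀ hF₁ hinj
    (le_trans (Nat.pow_le_pow_right hn (Nat.sub_le_sub_right hN 1)) hcard) y ⟨hy, hhor⟩ Y hY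
  -- gluing
  intro y hy Y hY hagree
  have hQd : 0 < Q.natDegree :=
    hQ.monic.natDegree_map (algebraMap W[X] (FractionRing W[X])) ▸ hQ.irreducible.natDegree_pos
  have hla : ∀ o, LocalAgree (coverBase Q) m.g (toHatFrac q) (β o) n y Y := by
    intro o τ hτ jg' hcomm
    obtain ⟨hdich, G, hG⟩ := (hβ o).exists_root m hy.1 hy.2 hY hτ hcomm
    obtain ⟨h1, h2⟩ := hirrv o τ hτ jg' hcomm
    rcases hdich with hD | ⟨x, hx⟩
    · obtain ⟨c, rfl, hc⟩ := hβss o (by rwa [coverPhi_map hτ] at hD)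
      let v : Node := ⟨⟨⟨c, hfin.mem_toFinset.2 hc⟩, τ, hτ⟩, by rwa [coverPhi_map hτ] at hD⟩
      obtain rfl : jg' = jg v :=
        m.hom_unique (maximalIdeal_hatSeries (W := W) (q := q)) (hcomm.symm.trans (hjg v))
      exact hagree v
    · exact exists_agree_of_root hqp hn hζ hΨ hd m.g m.split h0 y Y hY τ (toHatFrac q) jg' hcomm
        h1 h2 hx G hG
  let g₀ : CoverAlg W Q →+* AdjoinRoot (Q.map (gaussHom W q)) := m.e.symm.toRingHom.comp m.g
  have hg₀ : g₀.comp (coverBase Q) = (AdjoinRoot.of _).comp (gaussHom W q) := by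
    rw [RingHom.comp_assoc, m.g_base]
    refine RingHom.ext fun p => ?_
    simp only [RingHom.comp_apply, RingEquiv.toRingHom_eq_coe, RingHom.coe_coe]
    exact (RingEquiv.symm_apply_eq _).2 (m.e_coeff _).symm
  have hgr : g₀ (AdjoinRoot.root _) = AdjoinRoot.root _ := by
    simp [g₀, m.g_root]
  have heΨ : ((coverPhi Φ Q).map m.g).map m.e.symm.toRingHom = (coverPhi Φ Q).map g₀ :=
    Polynomial.map_map _ _ _
  have : CharZero (FractionRing W[X]) := charZero_of_injective_ringHom
    (f := (algebraMap W[X] (FractionRing W[X])).comp C)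
    ((IsFractionRing.injective W[X] _).comp C_injective)
  refine exists_root_of_local_coverPhi hW hΦ.monic hQ.monic hQd
    (by rw [hΦ.natDegree]; exact Nat.succ_pos q) hQ.irreducible.separable
    (separable_phi_fractionRing hL hqL hΦ) hn.ne' g₀ hg₀ hgr y
    (Pairs.map m.e.symm.toRingHom heΨ Y) (by
      rw [← map_pow, hY, Pairs.map_map_apply]) ?_ ?_
  · intro c
    obtain ⟨t₀, d, hc, hd', hβe⟩ := hβsome (some c) c rfl
    exact ⟨t₀, d, hc, hd', hβe ▸ (hβ _).splits,
      hβe ▸ LocalAgree.of_ringHom _ rfl (hla (some c)) heΨ⟩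
  · obtain ⟨d, hd', hβe⟩ := hβnone none rfl
    exact ⟨d, hd', hβe ▸ (hβ _).splits, hβe ▸ LocalAgree.of_ringHom _ rfl (hla none) heΨ⟩

end FLTA.Carayol
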