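import Fermat.Agent.Bridge.PlacesAbstract
import Fermat.Agent.Congruence.Twist
import Fermat.Agent.Smooth.SeparableCriterion
import Mathlib.FieldTheory.PurelyInseparable.PerfectClosure

/-!
# Places and embeddings into series in positive characteristic

The places where a separating element vanishes come from its embeddings; an embedding sending a
separating `s` to a monomial of degree prime to `q` is determined by its leading coefficients.
-/

set_option autoImplicit false

noncomputable section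

open AlgebraicCurve IntermediateField Polynomial

namespace FLTA.Bridge

variable {K F : Type*} [Field K] [Field F] [Algebra K F] {E : Type*} [Field E] {w : E → ℤ}
  {ι : Type*} [Fintype ι]

/-- The places at which `t` vanishes all come from the given embeddings (separable `F / K(t)`). -/
theorem exists_embedding_of_place_sep
    (hw : IsOrdFn w) (σ : ι → F →+* E) (hinj : Function.Injective σ) {t : F}
    [Module.Finite K⟮t⟯ F] [Algebra.IsSeparable K⟮t⟯ F] (hcard : Fintype.card ι = Module.finrank K⟮t⟯ F)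
    (hagree : ∀ i k, ∀ x : K⟮t⟯, σ i (x : F) = σ k (x : F))
    (hK : ∀ i c, w (σ i (algebraMap K F c)) = 0) (hpos : ∀ i, 0 < w (σ i t))
    (v : Place K F) (hv : 0 < v.ord t) :
    ∃ (i : ι) (d : ℕ), 0 < d ∧ ∀ x, w (σ i x) = d * v.ord x := by
  classical
  choose vi di hdi hvi using fun i => exists_place_of_embedding hw (σ i) (hK i) (hpos i).ne'
  by_contra hcon
  push Not at hcon
  have hne : v ∉ Finset.univ.image vi := by
    intro h
    obtain ⟨i, -, rfl⟩ := Finset.mem_image.mp h
    obtain ⟨x, hx⟩ := hcon i (di i) (hdi i)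
    exact hx (hvi i x)
  obtain ⟨x, hxv, hxs⟩ := exists_ord_neg_forall_pos _ hne
  have hIne : 0 < Fintype.card ι := by rw [hcard]; exact Module.finrank_pos
  obtain ⟨i₀⟩ := Fintype.card_pos_iff.mp hIne
  -- the embeddings give all the embeddings over `K(t)`
  let E' := AlgebraicClosure E
  let τ : K⟮t⟯ →+* E' := ((algebraMap E E').comp (σ i₀)).comp (algebraMap K⟮t⟯ F)
  let _ : Algebra K⟮t⟯ E' := τ.toAlgebra
  let Φ : ι → (F →ₐ[K⟮t⟯] E') := fun i =>
    { toRingHom := (algebraMap E E').comp (σ i)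
      commutes' := fun y => congrArg (algebraMap E E') (hagree i i₀ y) }
  have hΦinj : Function.Injective Φ := fun i k h => hinj (RingHom.ext fun y =>
    (algebraMap E E').injective (DFunLike.congr_fun h y))
  have hΦcard : Fintype.card (F →ₐ[K⟮t⟯] E') = Fintype.card ι := by
    rw [AlgHom.card K⟮t⟯ F E', hcard]
  have hΦsurj : Function.Surjective Φ :=
    ((Fintype.bijective_iff_injective_and_card Φ).mpr ⟨hΦinj, hΦcard.symm⟩).2
  set P := minpoly K⟮t⟯ x with hP
  have hint : IsIntegral K⟮t⟯ x := Algebra.IsIntegral.isIntegral x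
  let τE : K⟮t⟯ →+* E := (σ i₀).comp (algebraMap K⟮t⟯ F)
  have hroots : ∀ r ∈ (P.map τ).roots, ∃ i, algebraMap E E' (σ i x) = r := by
    intro r hr
    have h1 : r ∈ P.rootSet E' := by
      rw [mem_rootSet']
      rw [mem_roots'] at hr
      exact ⟨hr.1, by rw [aeval_def, eval₂_eq_eval_map]; exact hr.2⟩
    rw [← Algebra.IsAlgebraic.range_eval_eq_rootSet_minpoly] at h1
    obtain ⟨φ, hφ⟩ := h1
    obtain ⟨i, rfl⟩ := hΦsurj φ
    exact ⟨i, hφ⟩
  have hsplit : P.map τ = ((P.map τ).roots.map fun r => X - C r).prod :=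
    (IsAlgClosed.splits _).eq_prod_roots_of_monic ((minpoly.monic hint).map τ)
  obtain ⟨s, hs, hsr⟩ : ∃ s : Multiset E, (P.map τ).roots = s.map (algebraMap E E') ∧
      ∀ r ∈ s, 0 ≤ w r := by
    choose g hg using hroots
    refine ⟨(P.map τ).roots.pmap (fun r hr => σ (g r hr) x) fun r hr => hr, ?_, ?_⟩
    · rw [Multiset.map_pmap, Multiset.pmap_congr (q := fun _ => True) (g := fun r _ => r)
        (H₂ := fun _ _ => trivial) _ (fun r _ h₁ _ => hg r h₁), Multiset.pmap_eq_map, Multiset.map_id']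
    · intro r hr
      rw [Multiset.mem_pmap] at hr
      obtain ⟨a, ha, rfl⟩ := hr
      rw [hvi]
      exact mul_nonneg (Int.natCast_nonneg _)
        (hxs _ (Finset.mem_image_of_mem _ (Finset.mem_univ _))).le
  have hPE : P.map τE = (s.map fun r => X - C r).prod := by
    apply map_injective (algebraMap E E') (algebraMap E E').injective
    rw [Polynomial.map_map, show (algebraMap E E').comp τE = τ from rfl, hsplit, hs,
      Polynomial.map_multiset_prod, Multiset.map_map, Multiset.map_map]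
    simp
  have hcoeff : ∀ k, 0 ≤ v.ord (algebraMap K⟮t⟯ F (P.coeff k)) := by
    intro k
    have h1 := hw.nonneg_coeff_prod_X_sub_C s hsr k
    rw [← hPE, coeff_map] at h1
    obtain ⟨p, q, hpq⟩ := (mem_adjoin_simple_iff K _).mp (P.coeff k).2
    rcases eq_or_ne (P.coeff k) 0 with h0 | h0
    · simp [h0]
    change 0 ≤ w (σ i₀ ((P.coeff k : K⟮t⟯) : F)) at h1
    change 0 ≤ v.ord ((P.coeff k : K⟮t⟯) : F)
    rw [hpq] at h1 ⊢
    have hp0 : p ≠ 0 := fun h => h0 (Subtype.ext (by rw [hpq, h]; simp))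
    have hq0 : q ≠ 0 := fun h => h0 (Subtype.ext (by rw [hpq, h]; simp))
    have hev : ∀ r : K[X], σ i₀ (aeval t r) = r.eval₂ ((σ i₀).comp (algebraMap K F)) (σ i₀ t) :=
      fun r => by rw [aeval_def, hom_eval₂]
    obtain ⟨hp1, hp2⟩ := hw.map_eval₂ (φ := (σ i₀).comp (algebraMap K F)) (hK i₀) (hpos i₀) hp0
    obtain ⟨hq1, hq2⟩ := hw.map_eval₂ (φ := (σ i₀).comp (algebraMap K F)) (hK i₀) (hpos i₀) hq0
    rw [← hev] at hp1 hp2 hq1 hq2
    obtain ⟨hp3, hp4⟩ := (isOrdFn_place v).map_eval₂ (φ := algebraMap K F)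
      (FLTA.Curves.ord_algebraMap v) hv hp0
    obtain ⟨hq3, hq4⟩ := (isOrdFn_place v).map_eval₂ (φ := algebraMap K F)
      (FLTA.Curves.ord_algebraMap v) hv hq0
    rw [← aeval_def] at hp3 hp4 hq3 hq4
    rw [map_div₀, div_eq_mul_inv, hw.map_mul _ _ hp1 (inv_ne_zero hq1), hw.map_inv, hp2, hq2] at h1
    rw [div_eq_mul_inv, v.ord_mul hp3 (inv_ne_zero hq3), v.ord_inv, hp4, hq4]
    have h2 : (q.natTrailingDegree : ℤ) ≤ p.natTrailingDegree :=
      le_of_mul_le_mul_right (by linarith) (hpos i₀)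
    nlinarith
  -- contradiction with the pole at `v`
  have hx0 : x ≠ 0 := fun h => by rw [h, v.ord_zero] at hxv; omega
  have h := FLTA.Curves.sum_ne_zero_and_ord_sum_eq v (Finset.range (P.natDegree + 1))
    (fun k => algebraMap K⟮t⟯ F (P.coeff k) * x ^ k) (i₀ := P.natDegree) (by simp)
    (mul_ne_zero (by simp [(minpoly.monic hint).coeff_natDegree, hP]) (pow_ne_zero _ hx0))
    fun k hk hne => ?_
  · refine h.1 ?_
    have := minpoly.aeval K⟮t⟯ x
    rw [aeval_eq_sum_range] at this
    simpa only [Algebra.smul_def] using this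
  · rcases eq_or_ne (P.coeff k) 0 with h0 | h0
    · exact Or.inl (by simp [h0])
    refine Or.inr ?_
    have hlt : k < P.natDegree := lt_of_le_of_ne (by simpa [Nat.lt_succ_iff] using hk) hne
    rw [show P.coeff P.natDegree = 1 from (minpoly.monic hint).coeff_natDegree, map_one, one_mul,
      v.ord_mul (by simpa using h0) (pow_ne_zero _ hx0), (isOrdFn_place v).map_pow,
      (isOrdFn_place v).map_pow]
    have h1 := hcoeff k
    have h2 : (P.natDegree : ℤ) * v.ord x < k * v.ord x :=
      mul_lt_mul_of_neg_right (by exact_mod_cast hlt) hxv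
    omega

end FLTA.Bridge

namespace FLTA.Carayol.Haupt

open FLTA.Congruence

/-- Every element is `∑ s ^ r * (y r) ^ q` when `s` is not a `q`-th power. -/
theorem exists_sum_pow_mul_eq {k F : Type*} [Field k] [Field F] [Algebra k F] [PerfectField k]
    {q : ℕ} [Fact q.Prime] [CharP k q] [CharP F q] {s : F} (hs : ∀ z, z ^ q ≠ s)
    [Module.Finite k⟮s⟯ F] (x : F) : ∃ y : Fin q → F, x = ∑ r : Fin q, s ^ (r : ℕ) * y r ^ q := by
  have hq : q.Prime := Fact.out
  have : ExpChar F q := ExpChar.prime hq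
  have : ExpChar k⟮s⟯ q := by
    have : CharP k⟮s⟯ q := charP_of_injective_algebraMap (algebraMap k k⟮s⟯).injective q
    exact ExpChar.prime hq
  have hint : IsIntegral k⟮s⟯ x := Algebra.IsIntegral.isIntegral x
  have hsep := FLTA.Smooth.isSeparable_of_forall_pow_ne q hs hint
  have hmem : x ∈ k⟮s⟯⟮x ^ q⟯ := by
    have h := adjoin_simple_eq_adjoin_pow_expChar_pow_of_isSeparable k⟮s⟯ F hsep q 1
    rw [pow_one] at h
    rw [← h]
    exact mem_adjoin_simple_self _ x
  have hint' : IsIntegral k⟮s⟯ (x ^ q) := hint.pow q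
  rw [← IntermediateField.mem_toSubalgebra, adjoin_simple_toSubalgebra_of_isAlgebraic
    hint'.isAlgebraic, Algebra.adjoin_singleton_eq_range_aeval] at hmem
  obtain ⟨P, hP⟩ := hmem
  choose d hd using fun i => FLTA.Smooth.exists_sum_pow_mul_of_mem_adjoin q (P.coeff i).2
  refine ⟨fun r => ∑ i ∈ Finset.range (P.natDegree + 1), (d i r : F) * x ^ i, ?_⟩
  simp_rw [sum_pow_char, Finset.mul_sum, mul_pow, ← pow_mul]
  rw [Finset.sum_comm]
  conv_lhs => rw [← hP]
  show aeval (x ^ q) P = _
  rw [aeval_eq_sum_range]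
  refine Finset.sum_congr rfl fun i _ => ?_
  rw [Algebra.smul_def, show (algebraMap k⟮s⟯ F) (P.coeff i) = (P.coeff i : F) from rfl, hd i,
    Finset.sum_mul]
  exact Finset.sum_congr rfl fun r _ => by rw [← pow_mul, mul_comm i q]; ring

section series

variable {k : Type*} [Field k] {q : ℕ} [Fact q.Prime] [CharP k q]

/-- A series vanishing below `M` has `q`-th power vanishing below `q M`. -/
theorem coeff_pow_eq_zero_of_lt {u : LaurentSeries k} {M : ℤ} (h : ∀ i < M, u.coeff i = 0)
    (n : ℕ) {i : ℤ} (hi : i < n * M) : (u ^ n).coeff i = 0 := by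
  rcases eq_or_ne u 0 with rfl | hu
  · rcases n with _ | n
    · rw [pow_zero, HahnSeries.coeff_one, if_neg]; push_cast at hi; omega
    · simp
  refine HahnSeries.coeff_eq_zero_of_lt_order ?_
  rw [HahnSeries.order_pow, nsmul_eq_mul]
  have hM : M ≤ u.order := by
    by_contra hlt
    exact HahnSeries.coeff_order_eq_zero.not.mpr hu (h _ (not_le.mp hlt))
  calc i < (n : ℤ) * M := hi
    _ ≤ (n : ℤ) * u.order := mul_le_mul_of_nonneg_left hM (Int.natCast_nonneg n)

theorem coeff_single_mul_shift (d : ℤ) (u : LaurentSeries k) (i : ℤ) :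
    (HahnSeries.single d (1 : k) * u).coeff i = u.coeff (i - d) := by
  conv_lhs => rw [show i = (i - d) + d by ring]
  rw [HahnSeries.coeff_single_mul_add, one_mul]

variable {F : Type*} [Field F] {s : F}

/-- The order of a sum `∑ s ^ r (y r) ^ q` is at most that of each of its terms. -/
theorem order_sum_le {d : ℕ} (hd : d.Coprime q) {ψ : F →+* LaurentSeries k}
    (hs : ψ s = HahnSeries.single (d : ℤ) 1) (y : Fin q → F) {r : Fin q} (hr : y r ≠ 0) :
    (ψ (∑ r : Fin q, s ^ (r : ℕ) * y r ^ q)).order ≤ (r : ℕ) * d + q * (ψ (y r)).order := by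
  classical
  set g : Fin q → ℤ := fun r => (r : ℕ) * d + q * (ψ (y r)).order
  have hterm : ∀ (r : Fin q) (i : ℤ), (ψ (s ^ (r : ℕ) * y r ^ q)).coeff i =
      ((ψ (y r)) ^ q).coeff (i - (r : ℕ) * d) := fun r i => by
    rw [map_mul, map_pow, map_pow, hs, HahnSeries.single_pow, one_pow, nsmul_eq_mul,
      coeff_single_mul_shift]
  obtain ⟨r₀, hr₀, hmin⟩ := Finset.exists_min_image
    (Finset.univ.filter fun r => y r ≠ 0) g ⟨r, by simp [hr]⟩
  rw [Finset.mem_filter] at hr₀
  refine le_trans (HahnSeries.order_le_of_coeff_ne_zero ?_) (hmin r (by simp [hr]))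
  rw [map_sum, HahnSeries.coeff_sum, Finset.sum_eq_single r₀]
  · rw [hterm, show g r₀ - (r₀ : ℕ) * (d : ℤ) = q • (ψ (y r₀)).order by
      simp [g]]
    rw [← HahnSeries.order_pow]
    exact HahnSeries.coeff_order_eq_zero.not.mpr
      (pow_ne_zero _ ((map_ne_zero ψ).mpr hr₀.2))
  · intro b _ hb
    rcases eq_or_ne (y b) 0 with h0 | h0
    · rw [h0, zero_pow (Fact.out : q.Prime).ne_zero, mul_zero, map_zero, HahnSeries.coeff_zero]
    rw [hterm]
    refine HahnSeries.coeff_eq_zero_of_lt_order ?_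
    rw [HahnSeries.order_pow, nsmul_eq_mul]
    have hle : g r₀ ≤ g b := hmin b (by simp [h0])
    have hne : g r₀ ≠ g b := fun he => hb <| by
      have h1 : ((r₀ : ℕ) : ZMod q) * d = ((b : ℕ) : ZMod q) * d := by
        have := congrArg (Int.cast : ℤ → ZMod q) he
        simpa [g] using this
      have h2 : (d : ZMod q) ≠ 0 := fun h => by
        rw [ZMod.natCast_eq_zero_iff] at h
        exact (Fact.out : q.Prime).not_dvd_one (hd ▸ Nat.dvd_gcd h dvd_rfl)
      have h3 := mul_right_cancel₀ h2 h1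
      rw [ZMod.natCast_eq_natCast_iff', Nat.mod_eq_of_lt r₀.2, Nat.mod_eq_of_lt b.2] at h3
      exact Fin.ext h3.symm
    simp only [g] at hle hne ⊢
    omega
  · exact fun h => absurd (Finset.mem_univ r₀) h

/-- Two embeddings with the same monomial and the same leading coefficients agree. -/
theorem eq_of_series_lead (hdec : ∀ x : F, ∃ y : Fin q → F, x = ∑ r : Fin q, s ^ (r : ℕ) * y r ^ q)
    {d : ℕ} (hd : d.Coprime q) {ψ ψ' : F →+* LaurentSeries k}
    (hs : ψ s = HahnSeries.single (d : ℤ) 1) (hs' : ψ' s = HahnSeries.single (d : ℤ) 1)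
    (hlead : ∀ x, ∀ i ≤ (ψ x).order, (ψ' x).coeff i = (ψ x).coeff i) : ψ = ψ' := by
  have hq : q.Prime := Fact.out
  have : CharP (LaurentSeries k) q :=
    charP_of_injective_ringHom (HahnSeries.C_injective (Γ := ℤ) (R := k)) q
  have : ExpChar (LaurentSeries k) q := ExpChar.prime hq
  have key : ∀ n : ℕ, ∀ x, x ≠ 0 → ∀ i < (ψ x).order + (q : ℤ) ^ n,
      (ψ x - ψ' x).coeff i = 0 := by
    intro n
    induction n with
    | zero =>
      intro x _ i hi
      rw [HahnSeries.coeff_sub, hlead x i (by rw [pow_zero] at hi; omega), sub_self]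
    | succ n ih =>
      intro x _ i hi
      obtain ⟨y, rfl⟩ := hdec x
      simp only [map_sum, map_mul, map_pow, hs, hs', ← Finset.sum_sub_distrib, ← mul_sub,
        ← sub_pow_char, HahnSeries.coeff_sum]
      refine Finset.sum_eq_zero fun r _ => ?_
      rw [HahnSeries.single_pow, one_pow, nsmul_eq_mul, coeff_single_mul_shift]
      rcases eq_or_ne (y r) 0 with h0 | h0
      · rw [h0, map_zero, map_zero, sub_zero, zero_pow hq.ne_zero, HahnSeries.coeff_zero]
      refine coeff_pow_eq_zero_of_lt (ih (y r) h0) q ?_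
      have hle := order_sum_le hd hs y h0
      rw [pow_succ] at hi
      linarith
  refine RingHom.ext fun x => sub_eq_zero.mp (HahnSeries.ext (funext fun i => ?_))
  rcases eq_or_ne x 0 with rfl | hx
  · simp
  rw [HahnSeries.coeff_zero]
  obtain ⟨n, hn⟩ := pow_unbounded_of_one_lt (i - (ψ x).order)
    (show (1 : ℤ) < q by exact_mod_cast hq.one_lt)
  exact key n x hx i (by omega)

/-- If all orders are divisible by `p`, the embedding is fixed by the rotation by `ξ`, `ξ ^ p = 1`. -/
theorem scaleHom_eq_of_dvd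
    (hdec : ∀ x : F, ∃ y : Fin q → F, x = ∑ r : Fin q, s ^ (r : ℕ) * y r ^ q) {d p : ℕ} (hd : d.Coprime q)
    (hpd : p ∣ d) {ψ : F →+* LaurentSeries k} (hs : ψ s = HahnSeries.single (d : ℤ) 1) {ξ : kˣ}
    (hξ : ξ ^ p = 1) (hord : ∀ x, (p : ℤ) ∣ (ψ x).order) :
    (scaleHom ξ).comp ψ = ψ := by
  have hpow : ∀ i : ℤ, (p : ℤ) ∣ i → ((ξ ^ i : kˣ) : k) = 1 := by
    rintro i ⟨j, rfl⟩
    rw [zpow_mul, zpow_natCast, hξ, one_zpow, Units.val_one]
  refine (eq_of_series_lead hdec hd hs (ψ' := (scaleHom ξ).comp ψ) ?_ fun x i hi => ?_).symm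
  · ext i
    show ((ξ ^ i : kˣ) : k) * (ψ s).coeff i = _
    rw [hs, HahnSeries.coeff_single]
    split_ifs with h
    · rw [h, hpow _ (Int.natCast_dvd_natCast.mpr hpd), mul_one]
    · rw [mul_zero]
  · show ((ξ ^ i : kˣ) : k) * (ψ x).coeff i = _
    rcases hi.lt_or_eq with h | rfl
    · rw [HahnSeries.coeff_eq_zero_of_lt_order h, mul_zero]
    · rw [hpow _ (hord x), one_mul]

end series

end FLTA.Carayol.Haupt

end
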