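import Fermat.Agent.Carayol.Node.Twist
import Mathlib.RingTheory.RootsOfUnity.PrimitiveRoots

/-!
# The twists of functions of one root span all twists

`S` is a family of nodes. If a family of at least `n ^ (#S - 1)` pairwise inequivalent functions
of one root has roots on the branches, then every function of two roots with roots on the three
branches becomes an `n`-th power after multiplying by two of them.
-/

set_option autoImplicit false

noncomputable section

open Polynomial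

namespace FLTA.Carayol

/-- A coprime power which is an `n`-th power, among units. -/
theorem exists_root_of_coprime_pow {R : Type*} [CommRing R] {n q : ℕ} (hco : n.Coprime q)
    {u d : R} (hu : IsUnit u) (hd : IsUnit d) (h : u ^ q = d ^ n) : ∃ e : R, e ^ n = u := by
  obtain ⟨α, β, hab⟩ := hco.isCoprime
  obtain ⟨u, rfl⟩ := hu
  obtain ⟨d, rfl⟩ := hd
  have h' : u ^ q = d ^ n := Units.ext (by simpa using h)
  refine ⟨((u ^ α * d ^ β : Rˣ) : R), ?_⟩
  rw [← Units.val_pow_eq_pow_val]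
  congr 1
  rw [mul_pow, ← zpow_natCast, ← zpow_natCast (d ^ β) n, ← zpow_mul, ← zpow_mul, mul_comm β,
    zpow_mul d, zpow_natCast d n, ← h', ← zpow_natCast, ← zpow_mul, ← zpow_add,
    show α * n + q * β = 1 by linear_combination hab, zpow_one]

/-- The norm of a function of the first root. -/
theorem Pairs.normFst_onFst {K : Type} [CommRing K] [Nontrivial K] {Ψ : K[X]} {q : ℕ}
    (hΨ : Ψ.Monic) (hd : Ψ.natDegree = q + 1) (a : AdjoinRoot Ψ) :
    Pairs.normFst Ψ (onFst Ψ a) = a ^ q := by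
  have : Nontrivial (AdjoinRoot Ψ) := by
    rw [AdjoinRoot, Ideal.Quotient.nontrivial_iff, Ne, Ideal.span_singleton_eq_top]
    intro hu
    have := congrArg Polynomial.natDegree (hΨ.eq_one_of_isUnit hu)
    rw [Polynomial.natDegree_one] at this
    omega
  have hs := Pairs.monic_sndPoly hΨ (Φ := Ψ) (by omega)
  rw [Pairs.normFst, onFst, ← AdjoinRoot.algebraMap_eq,
    Algebra.norm_algebraMap_of_basis (AdjoinRoot.powerBasis' hs).basis, Fintype.card_fin,
    AdjoinRoot.powerBasis'_dim, Pairs.natDegree_sndPoly hΨ (by omega), hd, Nat.add_sub_cancel]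

/-- A function of one root which is an `n`-th power among pairs is one. -/
theorem exists_root_of_onFst {K : Type} [CommRing K] [Nontrivial K] {Ψ : K[X]} {q n : ℕ}
    (hΨ : Ψ.Monic) (hd : Ψ.natDegree = q + 1) (hn : n ≠ 0) (hnq : n.Coprime q)
    {a : AdjoinRoot Ψ} (ha : IsUnit a) {G : Pairs Ψ} (hG : G ^ n = onFst Ψ a) :
    ∃ e, e ^ n = a := by
  have h : a ^ q = Pairs.normFst Ψ G ^ n := by
    rw [← map_pow, hG, Pairs.normFst_onFst hΨ hd]
  exact exists_root_of_coprime_pow hnq ha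
    (isUnit_of_pow_eq_isUnit hn h.symm (ha.pow q)) h

variable {C L K M : Type} [Field C] [Field L] [Field K] [Field M]
variable {Ψ : C[X]} {g : C →+* L} {j : K →+* M}
variable {S : Type} [Fintype S] {τ : S → C →+* K} {jg : S → L →+* M}

theorem exists_isTwistOf (hΨ : Ψ.Monic) (hd : 1 < Ψ.natDegree) (s : RootSplit (Ψ.map g))
    [Fact (Irreducible s.quo)] [Fact (Irreducible s.G)] (h0 : s.quo.eval s.x₀ ≠ 0) {n : ℕ}
    {u : Fin 3 → C} (hu : ∀ i, u i ^ n = 1) {y : Pairs Ψ} {Y : Pairs (Ψ.map g)}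
    (hY : Y ^ n = Pairs.map g rfl y) :
    ∃ Y', s.IsTwistOf u Y Y' ∧ Y' ^ n = Pairs.map g rfl y := by
  have hd' : 1 < (Ψ.map g).natDegree := by rwa [hΨ.natDegree_map]
  obtain ⟨Y', h₀, h₁, h₂⟩ := s.br_surjective (hΨ.map g) hd' h0
    (AdjoinRoot.of s.quo (g (u 0)) * s.br₀ Y) (AdjoinRoot.of s.quo (g (u 1)) * s.br₁ Y)
    (AdjoinRoot.of s.G (AdjoinRoot.of s.quo (g (u 2))) * s.brₘ Y)
  refine ⟨Y', ⟨h₀, h₁, h₂⟩, sub_eq_zero.1 (s.br_injective (hΨ.map g) hd' h0 ?_ ?_ ?_)⟩
  · rw [map_sub, map_pow, h₀, mul_pow, ← map_pow, ← map_pow, hu, map_one, map_one, one_mul,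
      ← map_pow, hY, sub_self]
  · rw [map_sub, map_pow, h₁, mul_pow, ← map_pow, ← map_pow, hu, map_one, map_one, one_mul,
      ← map_pow, hY, sub_self]
  · rw [map_sub, map_pow, h₂, mul_pow, ← map_pow, ← map_pow, ← map_pow, hu, map_one, map_one,
      map_one, one_mul, ← map_pow, hY, sub_self]

/-- **Decomposition.** -/
theorem exists_pullback_decomp (hΨ : Ψ.Monic) {q n : ℕ} (hq : 1 ≤ q)
    (hd : Ψ.natDegree = q + 1) (hn : n ≠ 0) (hnq : n.Coprime q) {ζ : C} (hζ : IsPrimitiveRoot ζ n)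
    (s : RootSplit (Ψ.map g)) [Fact (Irreducible s.quo)] [Fact (Irreducible s.G)]
    (h0 : s.quo.eval s.x₀ ≠ 0) (h : ∀ v, j.comp (τ v) = (jg v).comp g)
    (hquo : ∀ v, Irreducible (s.map (jg v)).quo) (hG : ∀ v, Irreducible (s.map (jg v)).G)
    (P : Pairs Ψ → Prop) (hPu : ∀ y, P y → IsUnit y) (hPmul : ∀ y y', P y → P y' → P (y * y'))
    (hPswap : ∀ y, P y → P (Pairs.swap Ψ y))
    (hroot : ∀ y, P y → ∀ Y, Y ^ n = Pairs.map g rfl y →
      ∀ v, ∃ G, G ^ n = Pairs.map (τ v) rfl y)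
    (hglue : ∀ y, P y → ∀ Y : Pairs (Ψ.map g), Y ^ n = Pairs.map g rfl y →
      (∀ v, ∃ G : Pairs (Ψ.map (τ v)), G ^ n = Pairs.map (τ v) rfl y ∧
        Pairs.map j (Ψ := (Ψ.map g).map (jg v))
          (by rw [Polynomial.map_map, Polynomial.map_map, h v]) G = Pairs.map (jg v) rfl Y) →
      ∃ Z, Z ^ n = y)
    {I : Type} [Fintype I] (F : I → AdjoinRoot Ψ) (hF : ∀ i, IsUnit (F i))
    (hFP : ∀ i, P (onFst Ψ (F i)))
    (hF₀ : ∀ i, ∃ g₀, g₀ ^ n = s.proj₀ (AdjoinRoot.map g Ψ _ dvd_rfl (F i)))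
    (hF₁ : ∀ i, ∃ g₁, g₁ ^ n = s.proj₁ (AdjoinRoot.map g Ψ _ dvd_rfl (F i)))
    (hinj : ∀ i i', ∀ Z : AdjoinRoot Ψ, IsUnit Z → F i = F i' * Z ^ n → i = i')
    (hcard : n ^ (Fintype.card S - 1) ≤ Fintype.card I)
    (y : Pairs Ψ) (hy : P y) (Y : Pairs (Ψ.map g)) (hY : Y ^ n = Pairs.map g rfl y) :
    ∃ (i i' : I) (Z : Pairs Ψ),
      Z ^ n = y * onFst Ψ (F i) * Pairs.swap Ψ (onFst Ψ (F i')) := by
  classical
  have : NeZero n := ⟨hn⟩
  have hd1 : 1 < Ψ.natDegree := by omega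
  have hd' : 1 < (Ψ.map g).natDegree := by rwa [hΨ.natDegree_map]
  have hdk : ∀ v, (Ψ.map (τ v)).natDegree = q + 1 := fun v => by rw [hΨ.natDegree_map, hd]
  have h0v : ∀ v, (s.map (jg v)).quo.eval (s.map (jg v)).x₀ ≠ 0 := fun v => by
    rw [RootSplit.quo_map, RootSplit.map_x₀, eval_map, eval₂_at_apply]
    exact (_root_.map_ne_zero _).2 h0
  -- finish from diagonal twists
  have finish : ∀ (y : Pairs Ψ) (Y : Pairs (Ψ.map g)), P y → Y ^ n = Pairs.map g rfl y →
      ∀ (z : S → Fin 3 → C) (u : Fin 3 → C), (∀ i, u i ^ n = 1) →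
      (∀ v, s.NodeTwist (h v) n y Y (z v)) → (∀ v i, z v i ^ n = 1) →
      (∀ v, ∃ e : C, ∀ i, z v i = u i * e) → ∃ Z, Z ^ n = y := by
    intro y Y hy hY z u hu hz hz1 hdiag
    obtain ⟨Y', hY', hY'n⟩ := exists_isTwistOf hΨ hd1 s h0 hu hY
    refine hglue y hy Y' hY'n fun v => ?_
    have := Fact.mk (hquo v)
    have := Fact.mk (hG v)
    obtain ⟨e, he⟩ := hdiag v
    have hu0 : ∀ i, u i ≠ 0 := fun i h' => by
      have h1 := hu i
      rw [h', zero_pow hn] at h1
      exact zero_ne_one h1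
    have he1 : e ^ n = 1 := by
      have h1 := hz1 v 0
      rwa [he, mul_pow, hu, one_mul] at h1
    have he0 : e ≠ 0 := fun h' => by
      rw [h', zero_pow hn] at he1
      exact zero_ne_one he1
    refine RootSplit.NodeTwist.agree (h := h v) hΨ hd1 (h0v v) (d := e⁻¹) (z := fun _ => e)
      (by rw [inv_pow, he1, inv_one]) (fun _ => inv_mul_cancel₀ he0)
      (RootSplit.NodeTwist.congr_root (u := u) ?_ hY')
    convert hz v using 1
    funext i
    rw [Pi.mul_apply, he i]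
  -- the pullbacks
  choose g₀ hg₀ using hF₀
  choose g₁ hg₁ using hF₁
  choose R hR₀ hR₁ hR₂ using fun i => s.br_surjective (hΨ.map g) hd' h0
    (AdjoinRoot.of s.quo (g₀ i)) (g₁ i) (AdjoinRoot.of s.G (g₁ i))
  have hR : ∀ i, R i ^ n = Pairs.map g rfl (onFst Ψ (F i)) := fun i => by
    have hb := RootSplit.br_onFst s (AdjoinRoot.map g Ψ _ dvd_rfl (F i))
    refine sub_eq_zero.1 (s.br_injective (hΨ.map g) hd' h0 ?_ ?_ ?_)
    · rw [map_sub, map_pow, hR₀, RootSplit.map_onFst, hb.1, ← map_pow, hg₀, sub_self]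
    · rw [map_sub, map_pow, hR₁, RootSplit.map_onFst, hb.2.1, hg₁, sub_self]
    · rw [map_sub, map_pow, hR₂, RootSplit.map_onFst, hb.2.2, ← map_pow, hg₁, sub_self]
  have htw : ∀ i v, ∃ a b : C, a ^ n = 1 ∧ b ^ n = 1 ∧
      s.NodeTwist (h v) n (onFst Ψ (F i)) (R i) ![a, b, b] := fun i v => by
    obtain ⟨G, hGn⟩ := hroot _ (hFP i) _ (hR i) v
    rw [RootSplit.map_onFst] at hGn
    obtain ⟨e, he⟩ := exists_root_of_onFst (hΨ.map (τ v)) (hdk v) hn hnq ((hF i).map _) hGn
    have := Fact.mk (hquo v)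
    have := Fact.mk (hG v)
    exact RootSplit.exists_nodeTwist_onFst hζ (hF i) (hg₀ i) (hg₁ i) (hR₀ i) (hR₁ i) (hR₂ i) he
  choose a b ha hb hab using htw
  have hne : ∀ {x : C}, x ^ n = 1 → x ≠ 0 := fun hx h' => by
    rw [h', zero_pow hn] at hx
    exact zero_ne_one hx
  let mu (x : C) (hx : x ^ n = 1) : rootsOfUnity n C := rootsOfUnity.mkOfPowEq x hx
  have hval : ∀ (x : rootsOfUnity n C), ((x : Cˣ) : C) ^ n = 1 := fun x => by
    rw [← Units.val_pow_eq_pow_val]
    exact congrArg Units.val x.2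
  have hmu : ∀ x hx, (((mu x hx : rootsOfUnity n C) : Cˣ) : C) = x := fun x hx =>
    rootsOfUnity.val_mkOfPowEq_coe x hx
  let tw : I → S → rootsOfUnity n C := fun i v => mu (a i v) (ha i v) / mu (b i v) (hb i v)
  have htwv : ∀ i v, a i v = (((tw i v : rootsOfUnity n C) : Cˣ) : C) * b i v := fun i v => by
    have : tw i v * mu (b i v) (hb i v) = mu (a i v) (ha i v) := div_mul_cancel _ _
    have := congrArg (fun x : rootsOfUnity n C => ((x : Cˣ) : C)) this
    simpa [hmu] using this.symm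
  -- injectivity
  have key : ∀ i i' (c : rootsOfUnity n C), (∀ v, tw i v = tw i' v * c) → i = i' := by
    intro i i' c hc
    obtain ⟨Z, hZ⟩ := finish _ (R i * R i' ^ (2 * n - 1)) (hPmul _ _ (hFP i) (by
        have : ∀ k : ℕ, k ≠ 0 → P (onFst Ψ (F i') ^ k) := by
          intro k hk
          induction k with
          | zero => exact absurd rfl hk
          | succ k ih =>
            rcases Nat.eq_zero_or_pos k with rfl | hk0
            · simpa using hFP i'
            · rw [pow_succ]; exact hPmul _ _ (ih hk0.ne') (hFP i')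
        exact this (2 * n - 1) (by omega)))
      (by rw [mul_pow, hR, ← pow_mul, mul_comm _ n, pow_mul, hR, map_mul, map_pow])
      (fun v => ![a i v, b i v, b i v] * ![a i' v, b i' v, b i' v] ^ (2 * n - 1))
      ![((c : Cˣ) : C), 1, 1] (fun k => by fin_cases k <;> simp [hval c])
      (fun v => (hab i v).mul ((hab i' v).pow _))
      (fun v k => by
        fin_cases k <;>
          simp [mul_pow, pow_right_comm _ (2 * n - 1) n, ha, hb])
      (fun v => ⟨b i v * b i' v ^ (2 * n - 1), fun k => by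
        have hc' : a i v * a i' v ^ (2 * n - 1) =
            ((c : Cˣ) : C) * (b i v * b i' v ^ (2 * n - 1)) := by
          rw [htwv i v, htwv i' v, hc v]
          have h2 : (((tw i' v : rootsOfUnity n C) : Cˣ) : C) ^ (2 * n - 1) *
              (((tw i' v : rootsOfUnity n C) : Cˣ) : C) = 1 := by
            rw [← pow_succ, show 2 * n - 1 + 1 = n * 2 by omega, pow_mul, hval, one_pow]
          simp only [Subgroup.coe_mul, Units.val_mul]
          linear_combination (((c : Cˣ) : C) * b i v * b i' v ^ (2 * n - 1)) * h2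
        fin_cases k <;> simp [hc']⟩)
    rw [← map_pow, ← map_mul] at hZ
    obtain ⟨e, he⟩ := exists_root_of_onFst hΨ hd hn hnq ((hF i).mul ((hF i').pow _)) hZ
    obtain ⟨f, hf⟩ := hF i'
    have he' : IsUnit e := isUnit_of_pow_eq_isUnit hn he ((hF i).mul ((hF i').pow _))
    refine hinj i i' (e * ((f⁻¹ ^ 2 : (AdjoinRoot Ψ)ˣ) : AdjoinRoot Ψ))
      (he'.mul (Units.isUnit _)) ?_
    have h1 : (f : AdjoinRoot Ψ) * (f : AdjoinRoot Ψ) ^ (2 * n - 1) *
        ((f⁻¹ ^ 2 : (AdjoinRoot Ψ)ˣ) : AdjoinRoot Ψ) ^ n = 1 := by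
      rw [← pow_succ', show 2 * n - 1 + 1 = 2 * n by omega, Units.val_pow_eq_pow_val, ← pow_mul,
        ← mul_pow, Units.mul_inv, one_pow]
    rw [mul_pow, he, ← hf]
    linear_combination -(F i) * h1
  -- surjectivity
  have hsurj : Nonempty S → ∀ w : S → rootsOfUnity n C, ∃ i c, ∀ v, tw i v * c = w v := by
    intro hS w
    let : Fintype (rootsOfUnity n C) := Fintype.ofFinite _
    let Θ : I × rootsOfUnity n C → (S → rootsOfUnity n C) := fun p v => tw p.1 v * p.2
    have hΘ : Function.Injective Θ := by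
      rintro ⟨i, c⟩ ⟨i', c'⟩ hii
      have e : i = i' := key i i' (c' / c) fun v => by
        have := congrFun hii v
        simp only [Θ] at this
        rw [mul_div, ← this, mul_div_cancel_right]
      subst e
      obtain ⟨v⟩ := hS
      exact Prod.ext rfl (mul_left_cancel (congrFun hii v))
    have hc : Fintype.card (rootsOfUnity n C) = n := by
      rw [← Nat.card_eq_fintype_card, hζ.card_rootsOfUnity]
    have hle : Fintype.card (S → rootsOfUnity n C) ≤ Fintype.card (I × rootsOfUnity n C) := by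
      rw [Fintype.card_fun, Fintype.card_prod, hc]
      have hS' : 1 ≤ Fintype.card S := Fintype.card_pos
      calc n ^ Fintype.card S = n ^ (Fintype.card S - 1) * n := by
            rw [← pow_succ, Nat.sub_add_cancel hS']
        _ ≤ _ := Nat.mul_le_mul_right n hcard
    obtain ⟨⟨i, c⟩, hic⟩ := ((Fintype.bijective_iff_injective_and_card Θ).2
      ⟨hΘ, le_antisymm (Fintype.card_le_of_injective Θ hΘ) hle⟩).2 w
    exact ⟨i, c, congrFun hic⟩
  have hne' : Nonempty I := Fintype.card_pos_iff.1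
    (lt_of_lt_of_le (pow_pos (Nat.pos_of_ne_zero hn) _) hcard)
  have hsurj' : ∀ w : S → rootsOfUnity n C, ∃ i c, ∀ v, tw i v * c = w v := fun w => by
    rcases isEmpty_or_nonempty S with hS | hS
    · exact ⟨hne'.some, 1, fun v => hS.elim v⟩
    · exact hsurj hS w
  -- the twist of `y`
  have hzy : ∀ v, ∃ z : Fin 3 → C, (∀ k, z k ^ n = 1) ∧ s.NodeTwist (h v) n y Y z := fun v => by
    obtain ⟨G, hGn⟩ := hroot y hy Y hY v
    have := Fact.mk (hquo v)
    have := Fact.mk (hG v)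
    exact RootSplit.exists_nodeTwist hζ (hPu y hy) hY hGn
  choose z hz1 hz using hzy
  obtain ⟨i, c, hic⟩ := hsurj' fun v => mu (z v 2) (hz1 v 2) / mu (z v 0) (hz1 v 0)
  obtain ⟨i', c', hic'⟩ := hsurj' fun v => mu (z v 2) (hz1 v 2) / mu (z v 1) (hz1 v 1)
  have e₀ : ∀ v, a i v * ((c : Cˣ) : C) * z v 0 = z v 2 * b i v := fun v => by
    have h1 : tw i v * c * mu (z v 0) (hz1 v 0) = mu (z v 2) (hz1 v 2) := by
      rw [hic v, div_mul_cancel]
    have h2 := congrArg (fun x : rootsOfUnity n C => ((x : Cˣ) : C)) h1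
    simp only [Subgroup.coe_mul, Units.val_mul, hmu] at h2
    rw [htwv]
    linear_combination b i v * h2
  have e₁ : ∀ v, a i' v * ((c' : Cˣ) : C) * z v 1 = z v 2 * b i' v := fun v => by
    have h1 : tw i' v * c' * mu (z v 1) (hz1 v 1) = mu (z v 2) (hz1 v 2) := by
      rw [hic' v, div_mul_cancel]
    have h2 := congrArg (fun x : rootsOfUnity n C => ((x : Cˣ) : C)) h1
    simp only [Subgroup.coe_mul, Units.val_mul, hmu] at h2
    rw [htwv]
    linear_combination b i' v * h2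
  have hc0 : ∀ c : rootsOfUnity n C, ((c : Cˣ) : C) ≠ 0 := fun c => Units.ne_zero _
  refine ⟨i, i', finish _ (Y * R i * Pairs.swap _ (R i')) (hPmul _ _ (hPmul _ _ hy (hFP i)) (hPswap _ (hFP i')))
    (by rw [mul_pow, mul_pow, hY, hR, ← map_pow, hR, map_mul, map_mul, Pairs.map_swap])
    (fun v => z v * ![a i v, b i v, b i v] * ![b i' v, a i' v, b i' v])
    ![((c : Cˣ) : C)⁻¹, ((c' : Cˣ) : C)⁻¹, 1]
    (fun k => by fin_cases k <;> simp [hval])
    (fun v => ((hz v).mul (hab i v)).mul (by simpa using (hab i' v).swap))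
    (fun v k => by fin_cases k <;> simp [mul_pow, hz1, ha, hb])
    (fun v => ⟨z v 2 * b i v * b i' v, fun k => ?_⟩)⟩
  fin_cases k
  · simp
    rw [eq_inv_mul_iff_mul_eq₀ (hc0 c)]
    linear_combination b i' v * e₀ v
  · simp
    rw [eq_inv_mul_iff_mul_eq₀ (hc0 c')]
    linear_combination b i v * e₁ v
  · simp

end FLTA.Carayol
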