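import Fermat.Agent.Carayol.BranchTargets

/-!
# The twist of a root at a node

`C` is the field of the cover, `L` its field at the Gauss point with the three branches `s`, and a
node is a map `τ : C → K` with `κ : K → M` and `jg : L → M` compatible. A root `Y` over `L` and a
root `G` over `K` differ on the three branches by constants, the twist of `Y` at the node.
-/

set_option autoImplicit false

noncomputable section

open Polynomial

namespace FLTA.Carayol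

variable {C L K M : Type} [Field C] [Field L] [Field K] [Field M]
variable {Ψ : C[X]} {g : C →+* L} {τ : C →+* K} {j : K →+* M} {jg : L →+* M}

/-- A function of one root, seen on pairs through the first root. -/
def onFst {R : Type*} [CommRing R] (Ψ : R[X]) : AdjoinRoot Ψ →+* Pairs Ψ := AdjoinRoot.of (sndPoly Ψ)

/-- The root `Y` is multiplied by the constants `u` on the three branches. -/
def RootSplit.IsTwistOf (s : RootSplit (Ψ.map g)) (u : Fin 3 → C)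
    (Y Y' : Pairs (Ψ.map g)) : Prop :=
  s.br₀ Y' = AdjoinRoot.of s.quo (g (u 0)) * s.br₀ Y ∧
  s.br₁ Y' = AdjoinRoot.of s.quo (g (u 1)) * s.br₁ Y ∧
  s.brₘ Y' = AdjoinRoot.of s.G (AdjoinRoot.of s.quo (g (u 2))) * s.brₘ Y

/-- `z` is the twist of `Y` at the node. -/
def RootSplit.NodeTwist (s : RootSplit (Ψ.map g)) (h : j.comp τ = jg.comp g) (n : ℕ)
    (y : Pairs Ψ) (Y : Pairs (Ψ.map g)) (z : Fin 3 → C) : Prop :=
  ∃ G : Pairs (Ψ.map τ), G ^ n = Pairs.map τ rfl y ∧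
    (s.map jg).br₀ (Pairs.map j (Ψ := (Ψ.map g).map jg)
        (by rw [Polynomial.map_map, Polynomial.map_map, h]) G) =
      AdjoinRoot.of _ (jg (g (z 0))) * (s.map jg).br₀ (Pairs.map jg rfl Y) ∧
    (s.map jg).br₁ (Pairs.map j (Ψ := (Ψ.map g).map jg)
        (by rw [Polynomial.map_map, Polynomial.map_map, h]) G) =
      AdjoinRoot.of _ (jg (g (z 1))) * (s.map jg).br₁ (Pairs.map jg rfl Y) ∧
    (s.map jg).brₘ (Pairs.map j (Ψ := (Ψ.map g).map jg)
        (by rw [Polynomial.map_map, Polynomial.map_map, h]) G) =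
      AdjoinRoot.of _ (AdjoinRoot.of _ (jg (g (z 2)))) * (s.map jg).brₘ (Pairs.map jg rfl Y)

namespace RootSplit

variable {s : RootSplit (Ψ.map g)} {h : j.comp τ = jg.comp g} {n : ℕ}

theorem map_pow_node {y : Pairs Ψ} {Y : Pairs (Ψ.map g)} (hY : Y ^ n = Pairs.map g rfl y)
    {G : Pairs (Ψ.map τ)} (hG : G ^ n = Pairs.map τ rfl y) :
    Pairs.map j (Ψ := (Ψ.map g).map jg)
        (by rw [Polynomial.map_map, Polynomial.map_map, h]) G ^ n =
      Pairs.map jg rfl Y ^ n := by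
  rw [← map_pow, ← map_pow, hG, hY, ← RingHom.comp_apply, ← RingHom.comp_apply, Pairs.map_map,
    Pairs.map_map]
  refine congrArg (fun f : Pairs Ψ →+* Pairs ((Ψ.map g).map jg) => f y) ?_
  refine Pairs.ringHom_ext (RingHom.ext fun a => ?_) (by simp) (by simp)
  simp only [RingHom.comp_apply, Pairs.map_ofBase]
  exact congrArg _ (RingHom.congr_fun h a)

/-- A root at the node has a twist. -/
theorem exists_nodeTwist [NeZero n] {ζ : C} (hζ : IsPrimitiveRoot ζ n)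
    [Fact (Irreducible (s.map jg).quo)] [Fact (Irreducible (s.map jg).G)]
    {y : Pairs Ψ} {Y : Pairs (Ψ.map g)} (hyu : IsUnit y) (hY : Y ^ n = Pairs.map g rfl y)
    {G : Pairs (Ψ.map τ)} (hG : G ^ n = Pairs.map τ rfl y) :
    ∃ z : Fin 3 → C, (∀ i, z i ^ n = 1) ∧ s.NodeTwist h n y Y z := by
  have hYu : IsUnit (Pairs.map jg rfl Y : Pairs ((Ψ.map g).map jg)) :=
    (isUnit_of_pow_eq_isUnit (NeZero.ne n) hY (hyu.map _)).map _
  have e := map_pow_node (h := h) hY hG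
  set Gv : Pairs ((Ψ.map g).map jg) := Pairs.map j (Ψ := (Ψ.map g).map jg)
    (by rw [Polynomial.map_map, Polynomial.map_map, h]) G with hGv
  obtain ⟨a, ha⟩ := exists_zeta_ratio ((AdjoinRoot.of (s.map jg).quo).comp (jg.comp g)) hζ
    (b := (s.map jg).br₀ (Pairs.map jg rfl Y)) (hYu.map _).ne_zero
    (a := (s.map jg).br₀ Gv) (by rw [← map_pow, e, map_pow])
  obtain ⟨b, hb⟩ := exists_zeta_ratio ((AdjoinRoot.of (s.map jg).quo).comp (jg.comp g)) hζ
    (b := (s.map jg).br₁ (Pairs.map jg rfl Y)) (hYu.map _).ne_zero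
    (a := (s.map jg).br₁ Gv) (by rw [← map_pow, e, map_pow])
  obtain ⟨c, hc⟩ := exists_zeta_ratio
    ((AdjoinRoot.of (s.map jg).G).comp ((AdjoinRoot.of (s.map jg).quo).comp (jg.comp g))) hζ
    (b := (s.map jg).brₘ (Pairs.map jg rfl Y)) (hYu.map _).ne_zero
    (a := (s.map jg).brₘ Gv) (by rw [← map_pow, e, map_pow])
  refine ⟨![ζ ^ a, ζ ^ b, ζ ^ c], fun i => ?_, G, hG, ?_, ?_, ?_⟩
  · fin_cases i <;>
      simp only [Matrix.cons_val, Fin.zero_eta, Fin.mk_one, Fin.reduceFinMk] <;>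
      rw [← pow_mul, mul_comm, pow_mul, hζ.pow_eq_one, one_pow]
  · exact ha
  · exact hb
  · exact hc

theorem NodeTwist.mul {y y' : Pairs Ψ} {Y Y' : Pairs (Ψ.map g)} {z z' : Fin 3 → C}
    (H : s.NodeTwist h n y Y z) (H' : s.NodeTwist h n y' Y' z') :
    s.NodeTwist h n (y * y') (Y * Y') (z * z') := by
  obtain ⟨G, hG, e₀, e₁, e₂⟩ := H
  obtain ⟨G', hG', e₀', e₁', e₂'⟩ := H'
  refine ⟨G * G', by rw [mul_pow, hG, hG', map_mul], ?_, ?_, ?_⟩
  · simp only [map_mul, Pi.mul_apply, e₀, e₀']; ring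
  · simp only [map_mul, Pi.mul_apply, e₁, e₁']; ring
  · simp only [map_mul, Pi.mul_apply, e₂, e₂']; ring

theorem NodeTwist.pow {y : Pairs Ψ} {Y : Pairs (Ψ.map g)} {z : Fin 3 → C}
    (H : s.NodeTwist h n y Y z) (k : ℕ) : s.NodeTwist h n (y ^ k) (Y ^ k) (z ^ k) := by
  induction k with
  | zero => exact ⟨1, by simp, by simp, by simp, by simp⟩
  | succ k ih => rw [pow_succ, pow_succ, pow_succ]; exact ih.mul H

/-- Multiplying `Y` by constants on the branches. -/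
theorem NodeTwist.congr_root {y : Pairs Ψ} {Y Y' : Pairs (Ψ.map g)} {z u : Fin 3 → C}
    (H : s.NodeTwist h n y Y (u * z)) (hY' : s.IsTwistOf u Y Y') : s.NodeTwist h n y Y' z := by
  obtain ⟨G, hG, e₀, e₁, e₂⟩ := H
  obtain ⟨f₀, f₁, f₂⟩ := hY'
  refine ⟨G, hG, ?_, ?_, ?_⟩
  · rw [e₀, ← s.mapE_br₀ jg Y', f₀, map_mul, s.mapE_of, s.mapE_br₀, Pi.mul_apply, map_mul g,
      map_mul jg, map_mul]
    ring
  · rw [e₁, ← s.mapE_br₁ jg Y', f₁, map_mul, s.mapE_of, s.mapE_br₁, Pi.mul_apply, map_mul g,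
      map_mul jg, map_mul]
    ring
  · rw [e₂, ← s.mapE'_brₘ jg Y', f₂, map_mul, s.mapE'_brₘ, mapE', AdjoinRoot.map_of, s.mapE_of,
      Pi.mul_apply, map_mul g, map_mul jg, map_mul, map_mul]
    ring

/-- A twist which is the same on the three branches can be absorbed at the node. -/
theorem NodeTwist.agree (hΨ : Ψ.Monic) (hd : 1 < Ψ.natDegree)
    [Fact (Irreducible (s.map jg).quo)] [Fact (Irreducible (s.map jg).G)]
    (h0 : (s.map jg).quo.eval (s.map jg).x₀ ≠ 0)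
    {y : Pairs Ψ} {Y : Pairs (Ψ.map g)} {z : Fin 3 → C} {d : C} (hd1 : d ^ n = 1)
    (hz : ∀ i, d * z i = 1) (H : s.NodeTwist h n y Y z) :
    ∃ G : Pairs (Ψ.map τ), G ^ n = Pairs.map τ rfl y ∧
      Pairs.map j (Ψ := (Ψ.map g).map jg)
        (by rw [Polynomial.map_map, Polynomial.map_map, h]) G = Pairs.map jg rfl Y := by
  obtain ⟨G, hG, e₀, e₁, e₂⟩ := H
  refine ⟨Pairs.ofBase _ (τ d) * G, by
    rw [mul_pow, ← map_pow, ← map_pow, hd1, map_one, map_one, one_mul, hG], ?_⟩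
  have hc : j (τ d) = jg (g d) := RingHom.congr_fun h d
  refine sub_eq_zero.1 ((s.map jg).br_injective ((hΨ.map g).map jg)
    (by rwa [(hΨ.map g).natDegree_map, hΨ.natDegree_map]) h0 ?_ ?_ ?_)
  · rw [map_sub, map_mul, map_mul, Pairs.map_ofBase, e₀, hc, sub_eq_zero,
      show (s.map jg).br₀ (Pairs.ofBase _ (jg (g d))) = AdjoinRoot.of _ (jg (g d)) by simp [br₀],
      ← mul_assoc, ← map_mul, ← map_mul, ← map_mul, hz, map_one, map_one, map_one, one_mul]
  · rw [map_sub, map_mul, map_mul, Pairs.map_ofBase, e₁, hc, sub_eq_zero,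
      show (s.map jg).br₁ (Pairs.ofBase _ (jg (g d))) = AdjoinRoot.of _ (jg (g d)) by simp [br₁],
      ← mul_assoc, ← map_mul, ← map_mul, ← map_mul, hz, map_one, map_one, map_one, one_mul]
  · rw [map_sub, map_mul, map_mul, Pairs.map_ofBase, e₂, hc, sub_eq_zero,
      show (s.map jg).brₘ (Pairs.ofBase _ (jg (g d))) =
        AdjoinRoot.of _ (AdjoinRoot.of _ (jg (g d))) by simp [brₘ],
      ← mul_assoc, ← map_mul, ← map_mul, ← map_mul, ← map_mul, hz, map_one, map_one, map_one,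
      map_one, one_mul]

/-- Exchanging the two roots exchanges the first two constants. -/
theorem NodeTwist.swap {y : Pairs Ψ} {Y : Pairs (Ψ.map g)} {z : Fin 3 → C}
    (H : s.NodeTwist h n y Y z) :
    s.NodeTwist h n (Pairs.swap Ψ y) (Pairs.swap _ Y) ![z 1, z 0, z 2] := by
  obtain ⟨G, hG, e₀, e₁, e₂⟩ := H
  refine ⟨Pairs.swap _ G, by rw [← map_pow, hG, Pairs.map_swap], ?_, ?_, ?_⟩
  · rw [Pairs.map_swap, Pairs.map_swap, br₀_swap_eq, br₀_swap_eq, e₁]
    simp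
  · rw [Pairs.map_swap, Pairs.map_swap, br₁_swap_eq, br₁_swap_eq, e₀]
    simp
  · rw [Pairs.map_swap, Pairs.map_swap, brₘ_swap, brₘ_swap, e₂, map_mul, swapE'_of]
    simp

theorem map_onFst {D : Type} [Field D] {Θ : D[X]} (f : C →+* D) (hf : Ψ.map f = Θ)
    (a : AdjoinRoot Ψ) :
    Pairs.map f hf (onFst Ψ a) = onFst Θ (AdjoinRoot.map f Ψ Θ hf.symm.dvd a) := by
  have : (Pairs.map f hf).comp (onFst Ψ) = (onFst Θ).comp (AdjoinRoot.map f Ψ Θ hf.symm.dvd) := by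
    refine AdjoinRoot.ringHom_ext (RingHom.ext fun r => ?_) ?_
    · simpa [onFst, Pairs.ofBase] using Pairs.map_ofBase (Φ := Ψ) f hf r
    · simpa [onFst, Pairs.fst] using Pairs.map_fst (Φ := Ψ) f hf
  exact RingHom.congr_fun this a

theorem br_onFst {F : Type} [Field F] {Θ : F[X]} (t : RootSplit Θ) (a : AdjoinRoot Θ) :
    t.br₀ (onFst Θ a) = AdjoinRoot.of t.quo (t.proj₀ a) ∧ t.br₁ (onFst Θ a) = t.proj₁ a ∧
      t.brₘ (onFst Θ a) = AdjoinRoot.of t.G (t.proj₁ a) := by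
  refine ⟨?_, ?_, ?_⟩
  · refine RingHom.congr_fun (f := t.br₀.comp (onFst Θ))
      (g := (AdjoinRoot.of t.quo).comp t.proj₀) ?_ a
    refine AdjoinRoot.ringHom_ext (RingHom.ext fun r => ?_) ?_ <;>
      simp [br₀, onFst, Pairs.lift, proj₀]
  · refine RingHom.congr_fun (f := t.br₁.comp (onFst Θ)) (g := t.proj₁) ?_ a
    refine AdjoinRoot.ringHom_ext (RingHom.ext fun r => ?_) ?_ <;>
      simp [br₁, onFst, Pairs.lift, proj₁]
  · refine RingHom.congr_fun (f := t.brₘ.comp (onFst Θ))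
      (g := (AdjoinRoot.of t.G).comp t.proj₁) ?_ a
    refine AdjoinRoot.ringHom_ext (RingHom.ext fun r => ?_) ?_ <;>
      simp [brₘ, onFst, Pairs.lift, proj₁]

/-- The twist of a function of the first root is the same on the last two branches. -/
theorem exists_nodeTwist_onFst [NeZero n] {ζ : C} (hζ : IsPrimitiveRoot ζ n)
    [Fact (Irreducible (s.map jg).quo)] [Fact (Irreducible (s.map jg).G)]
    {f : AdjoinRoot Ψ} (hfu : IsUnit f) {g₀ : L}
    (hg₀ : g₀ ^ n = s.proj₀ (AdjoinRoot.map g Ψ _ dvd_rfl f)) {g₁ : s.E}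
    (hg₁ : g₁ ^ n = s.proj₁ (AdjoinRoot.map g Ψ _ dvd_rfl f))
    {Y : Pairs (Ψ.map g)} (hY₀ : s.br₀ Y = AdjoinRoot.of s.quo g₀) (hY₁ : s.br₁ Y = g₁)
    (hY₂ : s.brₘ Y = AdjoinRoot.of s.G g₁)
    {G : AdjoinRoot (Ψ.map τ)} (hG : G ^ n = AdjoinRoot.map τ Ψ _ dvd_rfl f) :
    ∃ a b : C, a ^ n = 1 ∧ b ^ n = 1 ∧ s.NodeTwist h n (onFst Ψ f) Y ![a, b, b] := by
  have e : (Ψ.map τ).map j = (Ψ.map g).map jg := by
    rw [Polynomial.map_map, Polynomial.map_map, h]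
  set Gv := AdjoinRoot.map j (Ψ.map τ) ((Ψ.map g).map jg) e.symm.dvd G with hGv
  have hpow : Gv ^ n =
      AdjoinRoot.map jg (Ψ.map g) _ dvd_rfl (AdjoinRoot.map g Ψ _ dvd_rfl f) := by
    rw [hGv, ← map_pow, hG, ← RingHom.comp_apply, ← RingHom.comp_apply (AdjoinRoot.map jg _ _ _)]
    refine congrArg (fun φ : AdjoinRoot Ψ →+* AdjoinRoot ((Ψ.map g).map jg) => φ f) ?_
    refine AdjoinRoot.ringHom_ext (RingHom.ext fun r => ?_) (by simp)
    have := RingHom.congr_fun h r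
    simp only [RingHom.comp_apply] at this
    simp [this]
  have hu₀ : IsUnit g₀ := isUnit_of_pow_eq_isUnit (NeZero.ne n) hg₀ ((hfu.map _).map _)
  have hu₁ : IsUnit g₁ := isUnit_of_pow_eq_isUnit (NeZero.ne n) hg₁ ((hfu.map _).map _)
  obtain ⟨a, ha⟩ := exists_zeta_ratio (jg.comp g) hζ (b := jg g₀) (hu₀.map jg).ne_zero
    (a := (s.map jg).proj₀ Gv) (by rw [← map_pow, hpow, s.proj₀_map, ← map_pow, hg₀])
  obtain ⟨b, hb⟩ := exists_zeta_ratio ((AdjoinRoot.of (s.map jg).quo).comp (jg.comp g)) hζ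
    (b := s.mapE jg g₁) (hu₁.map (s.mapE jg)).ne_zero
    (a := (s.map jg).proj₁ Gv) (by rw [← map_pow, hpow, s.proj₁_map, ← map_pow, hg₁])
  have hroot : ∀ i : ℕ, (ζ ^ i) ^ n = 1 := fun i => by
    rw [← pow_mul, mul_comm, pow_mul, hζ.pow_eq_one, one_pow]
  refine ⟨ζ ^ a, ζ ^ b, hroot a, hroot b, onFst _ G, by rw [← map_pow, hG, map_onFst], ?_, ?_, ?_⟩
  · rw [map_onFst, (br_onFst _ _).1, ← s.mapE_br₀, hY₀, s.mapE_of, ha, map_mul]
    simp
  · rw [map_onFst, (br_onFst _ _).2.1, ← s.mapE_br₁, hY₁, hb]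
    simp
  · rw [map_onFst, (br_onFst _ _).2.2, ← s.mapE'_brₘ, hY₂, hb, map_mul, mapE', AdjoinRoot.map_of]
    simp

end RootSplit

end FLTA.Carayol
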